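import Fermat.Agent.TyC.BrB

/-!
# The bridge
-/

set_option autoImplicit false
set_option linter.unusedSectionVars false
set_option linter.style.haveILetI false

open scoped MatrixGroups
open UpperHalfPlane ModularForm Complex Matrix.SpecialLinearGroup CongruenceSubgroup
open Fermat.Agent.AL Fermat.Agent.ALCoh
open Fermat.Agent.KumG Fermat.Agent.Cov ModularCurve Fermat.Agent.ModPoly Fermat.Agent.GamH
  Fermat.Agent.RedMod Fermat.Agent.Red AlgebraicCurve Fermat.Agent.RR Polynomial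
  Fermat.Agent.SSH Fermat.Agent.SemiSt Fermat.Agent.Nod Fermat.Agent.Curve Fermat.Agent.E2
  Fermat.Agent.Cusp

namespace Fermat.Agent.TyC

noncomputable section

attribute [local instance 10000] fastAlg

section Set

variable {A₀ K₀ A K k : Type*} [CommRing A₀] [IsDomain A₀] [IsDiscreteValuationRing A₀] [Field K₀]
  [CharZero K₀] [Algebra ℚ K₀]
  [Algebra A₀ K₀] [IsFractionRing A₀ K₀] [CommRing A] [IsDomain A] [ValuationRing A]
  [Field K] [IsAlgClosed K] [CharZero K] [Algebra ℚ K] [Algebra A K] [IsFractionRing A K]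
  [Field k] [IsAlgClosed k] [Algebra A k] [Algebra A₀ k] [Algebra K₀ K]
  {q M : ℕ} [hq : Fact q.Prime] [NeZero M]
  {H : Subgroup (ZMod M)ˣ} [hH : Fact ((-1 : (ZMod M)ˣ) ∈ H)] [CharP k q] [PerfectRing k q]
  [Algebra.IsAlgebraic K₀ K] (s : Set2 A₀ K₀ A K k q M H)

theorem rza_of_realize (hU : s.Unif) {p : ℕ} (hp : p ≠ 0) (h : Realize s p) :
    RZa A (emb K₀ K (Gq q M H)) s.toSetting.S.w s.toSetting.S.jq s.S₀.jE s.S₀.sg p := by
  haveI := s.toSetting.ffE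
  haveI := s.toSetting.ffM
  haveI := s.toSetting.ffq
  letI := algA A₀ (FG (Gq q M H) K₀)
  haveI := tower_algA A₀ (FG (Gq q M H) K₀)
  letI := algA A₀ (FH k M H)
  haveI := tower_algA A₀ (FH k M H)
  have hR : RlA s.X s.toSetting.sp p := by
    refine ⟨h.sp, fun ρ hρ => ?_⟩
    obtain ⟨g, D, γ, hg, hD, hv, hγ, ht⟩ := h.tor ρ hρ
    refine ⟨g, D, γ, hg, hD, hv, hγ, fun Q hQ hGl x hx => ?_⟩
    have hW := s.X.mem_WW_iff.1 hx.1
    refine ht Q ⟨hGl.1, hQ, fun y hy => ?_⟩ x ⟨hW 0, hW 1, fun v hv => ?_⟩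
    · refine hGl.2 y ?_
      rw [s.X.mem_B s.toSetting.sp]
      refine ⟨s.X.mem_WW_iff.2 (by rw [Fin.forall_fin_two]; exact ⟨hy.w0, hy.w1⟩), ?_⟩
      intro v hv
      exact hy.ge v hv
    · have h2 := hx.2 v (by rw [s.X.cm_embt]; exact hv)
      exact h2
  exact hR.rza (s.toSetting.gen) s.toSetting.pol (V := s.mu hU) hp

end Set

section Transport

variable (A : Type*) {K₀ Ω k : Type*} [CommRing A] [IsDomain A] [ValuationRing A]
  [Field K₀] [Field Ω] [Field k] [Algebra A Ω] [IsFractionRing A Ω] [Algebra A k]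

theorem RZa.transport {Fq₀ Fq₀' : IntermediateField K₀ (LaurentSeries K₀)}
    {Fq Fq' : IntermediateField Ω (LaurentSeries Ω)}
    {E E' : IntermediateField k (LaurentSeries k)} {em : Fq₀ → Fq} {w : Fq → Fq} {jq : Fq} {jE : E}
    {σ : E → E} {em' : Fq₀' → Fq'} {w' : Fq' → Fq'} {jq' : Fq'} {jE' : E'}
    {σ' : E' → E'} {p : ℕ} (e₀ : Fq₀ = Fq₀') (e : Fq = Fq') (eE : E = E')
    (hem : ∀ (x : Fq₀) (x' : Fq₀'), (x : LaurentSeries K₀) = x' →
      (em x : LaurentSeries Ω) = em' x')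
    (hw : ∀ (x : Fq) (x' : Fq'), (x : LaurentSeries Ω) = x' → (w x : LaurentSeries Ω) = w' x')
    (hj : (jq : LaurentSeries Ω) = jq') (hjE : (jE : LaurentSeries k) = jE')
    (hσ : ∀ (x : E) (x' : E'), (x : LaurentSeries k) = x' → (σ x : LaurentSeries k) = σ' x')
    (h : RZa A em w jq jE σ p) : RZa A em' w' jq' jE' σ' p := by
  subst e₀ e eE
  have h1 : em = em' := funext fun x => Subtype.ext (hem x x rfl)
  have h2 : w = w' := funext fun x => Subtype.ext (hw x x rfl)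
  have h3 : jq = jq' := Subtype.ext hj
  have h4 : jE = jE' := Subtype.ext hjE
  have h5 : σ = σ' := funext fun x => Subtype.ext (hσ x x rfl)
  subst h1 h2 h3 h4 h5
  exact h

end Transport

section RZ

variable {K0 A Ω k : Type*}
  [Field K0] [CommRing A] [IsDomain A] [ValuationRing A] [Field Ω]
  [IsAlgClosed Ω] [CharZero Ω] [CharZero K0]
  [Algebra A Ω] [IsFractionRing A Ω] [Field k] [Algebra A k] [Algebra K0 Ω]
  {q M : ℕ} [hq : Fact q.Prime] [NeZero M] [CharP k q] (hco : q.Coprime M) [IsAlgClosed k]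

theorem rda_rd2 {x : FF K0 (q * M)} {a b : FF k M} :
    Rda A (CarE.emb K0 Ω (q * M)) (SemiSt.w Ω hco) x a b ↔ Rd2 A Ω k hco x a b :=
  ⟨fun h => ⟨h.r0, h.r1⟩, fun h => ⟨h.r0, h.r1⟩⟩

theorem secA_secD {D : Divisor Ω (FF Ω (q * M))} {x : FF K0 (q * M)} {a b : FF k M} :
    SecA A (CarE.emb K0 Ω (q * M)) (SemiSt.w Ω hco) (jF' Ω (q * M)) D x a b ↔
      SecD A Ω k hco D x a b :=
  ⟨fun h => ⟨(rda_rd2 hco).1 h.rd, h.ge⟩, fun h => ⟨(rda_rd2 hco).2 h.rd, h.ge⟩⟩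

theorem nda_nd {Q : Place k (FF k M)} :
    Nda A (CarE.emb K0 Ω (q * M)) (SemiSt.w Ω hco) (jF' Ω (q * M)) (jF' k M) (Frq k q M) Q ↔
      Nd K0 A Ω k q M hco Q :=
  ⟨fun h => ⟨h.1, fun x a b hx => h.2 x a b ((secA_secD hco).2 hx)⟩,
    fun h => ⟨h.1, fun x a b hx => h.2 x a b ((secA_secD hco).1 hx)⟩⟩

theorem rz_of_rza {p : ℕ} (h : RZa A (CarE.emb K0 Ω (q * M)) (SemiSt.w Ω hco) (jF' Ω (q * M))
    (jF' k M) (Frq k q M) p) : RZ K0 A Ω k q M hco p where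
  sp a b ha hb hda hdb := by
    obtain ⟨g, α, β, hg, hd, hα, hβ, hr⟩ := h.sp a b ha hb hda hdb
    exact ⟨g, α, β, hg, hd, hα, hβ, (rda_rd2 hco).1 hr⟩
  tor ρ hρ := by
    obtain ⟨g, D, α, β, hg, hD, hα, hβ, hr, ht⟩ := h.tor ρ hρ
    exact ⟨g, D, α, β, hg, hD, hα, hβ, (rda_rd2 hco).1 hr, fun Q hQ x a b hx =>
      ht Q ((nda_nd hco).2 hQ) x a b ((secA_secD hco).2 hx)⟩
  gen g D α β hg hD hα hβ hr Q hQ := by
    obtain ⟨x, a, b, hx, hv⟩ := h.gen g D α β hg hD hα hβ ((rda_rd2 hco).2 hr) Q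
      ((nda_nd hco).2 hQ)
    exact ⟨x, a, b, (secA_secD hco).1 hx, hv⟩

end RZ

section SetTop

variable {A₀ K₀ A K k : Type*} [CommRing A₀] [IsDomain A₀] [IsDiscreteValuationRing A₀] [Field K₀]
  [CharZero K₀] [Algebra ℚ K₀]
  [Algebra A₀ K₀] [IsFractionRing A₀ K₀] [CommRing A] [IsDomain A] [ValuationRing A]
  [Field K] [IsAlgClosed K] [CharZero K] [Algebra ℚ K] [Algebra A K] [IsFractionRing A K]
  [Field k] [IsAlgClosed k] [Algebra A k] [Algebra A₀ k] [Algebra K₀ K]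
  {q M : ℕ} [hq : Fact q.Prime] [NeZero M] [CharP k q] [PerfectRing k q]
  [Algebra.IsAlgebraic K₀ K] (s : Set2 A₀ K₀ A K k q M (⊤ : Subgroup (ZMod M)ˣ))

theorem θ_top (x : FG (GH M (⊤ : Subgroup (ZMod M)ˣ)) K₀) : s.S₀.δ.θ x = x :=
  diaK_of_mem s.ι₀ (mem_M (exists_γ0 s.D).choose_spec.1)
    (mem_GH_top (mem_M (exists_γ0 s.D).choose_spec.1)) x

theorem θb_top (a : FH k M (⊤ : Subgroup (ZMod M)ˣ)) : s.S₀.δ.θb a = a := by
  obtain ⟨x, hx⟩ := SExt.exists_LR (S₀ := s.S₀) (S := s.toSetting.S) s.toSetting.sp a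
  have h1 := SSD.LR.dia s.S₀.δ hx
  rw [θ_top] at h1
  exact Subtype.ext (h1.unique hx)

theorem sg_top (a : FH k M (⊤ : Subgroup (ZMod M)ˣ)) :
    (s.S₀.sg a : LaurentSeries k) = qExpand k q (a : LaurentSeries k) := by
  rw [SSD.coe_sg, θb_top]

/-- **the bridge** -/
theorem rz_of_set (hU : s.Unif) (hco : q.Coprime M) {p : ℕ} (hp : p ≠ 0) (h : Realize s p) :
    RZ K₀ A K k q M hco p := by
  refine rz_of_rza hco ?_
  refine RZa.transport A (FG_top0 (K := K) s.ι s.hM3) (FG_top s.ι s.hM3)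
    (FH_top s.hM s.hM3 rfl) ?_ ?_ ?_ ?_ ?_ (rza_of_realize s hU hp h)
  · intro x x' e
    rw [E2.coe_emb, CarE.coe_emb, e]
  · intro x x' e
    exact wE_eq_w s.ι s.D s.hM3 hco x x' e
  · exact Jc_one_one.symm
  · exact Jc_one_one.symm
  · intro x x' e
    rw [sg_top, coe_Frq, e]

end SetTop

section Qb

open Fermat.Agent.Flat

local notation "Q̄" => AlgebraicClosure ℚ

attribute [local instance] ThmC.algRK ThmC.isFractionRing_RK

variable {A : ValuationSubring (AlgebraicClosure ℚ)} {q M : ℕ} [hq : Fact q.Prime] [NeZero M]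

/-- **the bridge over the fixed field of inertia** -/
theorem rz_of_realize (hA : A.LiesOverPrime q) (hqM : ¬ q ∣ M) (hM3 : 3 ≤ M)
    (D : WData q M (⊤ : Subgroup (ZMod M)ˣ)) (ι : Q̄ →+* ℂ) {r : ℕ} (hr : r.Prime)
    (hr12 : r % 12 = 11) (hrM : r ∣ M) (hco : q.Coprime M) {p : ℕ} (hp : p ≠ 0)
    (h : haveI := isDVR hA
      haveI : CharP (IsLocalRing.ResidueField A) q := RedMod.charP_residue hA
      haveI := CarE.algebraic_K0 (A := A)
      Realize (qset2 hA hqM hM3 D ι) p) :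
    haveI : CharP (IsLocalRing.ResidueField A) q := RedMod.charP_residue hA
    RZ (K0 A) A Q̄ (IsLocalRing.ResidueField A) q M hco p := by
  haveI := isDVR hA
  haveI : CharP (IsLocalRing.ResidueField A) q := RedMod.charP_residue hA
  haveI := CarE.algebraic_K0 (A := A)
  exact rz_of_set (qset2 hA hqM hM3 D ι) (unif_qset2 hA hqM hM3 D ι hr hr12 hrM) hco hp h

end Qb

end

end Fermat.Agent.TyC
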