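import Fermat.Agent.TyC.Tch
import Fermat.Agent.TyC.Bridge
import Fermat.Agent.RlG.Real
import Fermat.Agent.SSH.Odd

/-!
# The type change: conclusion
-/

set_option autoImplicit false
set_option linter.style.haveILetI false
set_option linter.unusedSectionVars false

noncomputable section

namespace Fermat.Agent.TyC

open Fermat.Agent.Flat Fermat.Agent.SSH

attribute [local instance] ThmC.algRK ThmC.isFractionRing_RK

/-- **Type change**: the body of `WM.TCh W p`. -/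
theorem tch {W : WeierstrassCurve ℤ} (hΔ : W.Δ ≠ 0) (hss : W.IsSemistableModel)
    {p : ℕ} [hp : Fact p.Prime] (hp2 : p ≠ 2) (hirr : W.ModRepIsIrreducible p) :
    ∀ q M r : ℕ, q.Prime → q ≠ p → ¬ q ∣ M → 0 < M → r.Prime → r ∣ M → r % 12 = 11 →
      W.IsResiduallyModularOfLevel p (q ^ 2 * M) → W.IsResiduallyModularOfLevel p (q * M) := by
  intro q M r hq hqp hqM hM0 hr hrM hr12 hmod
  haveI : Fact q.Prime := ⟨hq⟩
  haveI : NeZero q := ⟨hq.ne_zero⟩
  haveI : NeZero M := ⟨hM0.ne'⟩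
  have hco : q.Coprime M := (Nat.Prime.coprime_iff_not_dvd hq).2 hqM
  have hM3 : 3 ≤ M := by
    have h1 := Nat.le_of_dvd hM0 hrM
    have h2 : 11 ≤ r := by omega
    omega
  haveI : Fact ((-1 : (ZMod M)ˣ) ∈ (⊤ : Subgroup (ZMod M)ˣ)) := ⟨Subgroup.mem_top _⟩
  obtain ⟨D⟩ : Nonempty (WData q M (⊤ : Subgroup (ZMod M)ˣ)) :=
    exists_WData_of_odd hco (by rw [Subgroup.index_top]; exact odd_one)
  let ι : AlgebraicClosure ℚ →+* ℂ :=
    (IsAlgClosed.lift : AlgebraicClosure ℚ →ₐ[ℚ] ℂ).toRingHom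
  have hpq : ¬ q ∣ p := fun h => hqp ((Nat.prime_dvd_prime_iff_eq hq hp.out).1 h)
  exact tch_of hΔ hss hp2 hirr hco hqp hr hrM hr12 (fun A hA => rz_of_realize hA hqM hM3 D ι hr hr12
    hrM hco hp.out.ne_zero (RlG.realize hA hqM hM3 D Subgroup.index_top ι hr hr12 hrM hpq)) hmod

end Fermat.Agent.TyC
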