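import Fermat.Agent.TyC.Iface
import Fermat.Agent.CarM.DescP

/-!
# The bridge: realisation in terms of reductions of expansions
-/

set_option autoImplicit false
set_option linter.unusedSectionVars false
set_option linter.style.haveILetI false

open scoped MatrixGroups
open Fermat.Agent.KumG Fermat.Agent.Cov ModularCurve Fermat.Agent.ModPoly Fermat.Agent.GamH
  Fermat.Agent.RedMod Fermat.Agent.Red AlgebraicCurve Fermat.Agent.RR
  Fermat.Agent.SSH Fermat.Agent.SemiSt Fermat.Agent.Nod Fermat.Agent.Curve Fermat.Agent.E2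

namespace Fermat.Agent.TyC

noncomputable section

attribute [local instance 10000] fastAlg

section Abs

variable (A : Type*) {K₀ Ω k : Type*} [CommRing A] [IsDomain A] [ValuationRing A]
  [Field K₀] [Field Ω] [Field k] [Algebra A Ω] [IsFractionRing A Ω] [Algebra A k]
  {Fq₀ : IntermediateField K₀ (LaurentSeries K₀)}
  {Fq : IntermediateField Ω (LaurentSeries Ω)}
  {E : IntermediateField k (LaurentSeries k)} (em : Fq₀ → Fq) (w : Fq → Fq) (jq : Fq) (jE : E)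
  (σ : E → E)

/-- reductions along the two components -/
structure Rda (x : Fq₀) (a b : E) : Prop where
  r0 : LR A (em x : LaurentSeries Ω) (a : LaurentSeries k)
  r1 : LR A (w (em x) : LaurentSeries Ω) (b : LaurentSeries k)

/-- sections over the finite chart -/
structure SecA (D : Divisor Ω Fq) (x : Fq₀) (a b : E) : Prop where
  rd : Rda A em w x a b
  ge : ∀ v : Place Ω Fq, 0 ≤ v.ord jq → Ge v (D v) (em x)

/-- a point on both components -/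
def Nda (Q : Place k E) : Prop := 0 ≤ Q.ord jE ∧
  ∀ (x : Fq₀) (a b : E), SecA A em w jq 0 x a b → val Q a = val Q (σ b)

/-- **realisation of reductions and gluing data** -/
structure RZa (p : ℕ) : Prop where
  sp : ∀ a b : E, a ≠ 0 → b ≠ 0 → (∀ Q : Place k E, (p : ℤ) ∣ Q.ord a) →
    (∀ Q : Place k E, (p : ℤ) ∣ Q.ord b) →
    ∃ (g : Fq₀) (α β : E), g ≠ 0 ∧
      (∀ v : Place Ω Fq, (p : ℤ) ∣ v.ord (em g)) ∧
      α ≠ 0 ∧ β ≠ 0 ∧ Rda A em w g (a * α ^ p) (b * β ^ p)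
  tor : ∀ ρ : Place k E → k, (∀ Q, ρ Q ^ p = 1) →
    ∃ (g : Fq₀) (D : Divisor Ω Fq) (α β : E), g ≠ 0 ∧
      (∀ v, (p : ℤ) * D v = v.ord (em g)) ∧ α ≠ 0 ∧ β ≠ 0 ∧
      Rda A em w g (α ^ p) (β ^ p) ∧
      ∀ Q, Nda A em w jq jE σ Q → ∀ (x : Fq₀) (a b : E),
        SecA A em w jq D x a b → val Q (a / α) = ρ Q * val Q (σ (b / β))
  gen : ∀ (g : Fq₀) (D : Divisor Ω Fq) (α β : E), g ≠ 0 →
    (∀ v, (p : ℤ) * D v = v.ord (em g)) → α ≠ 0 → β ≠ 0 →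
    Rda A em w g (α ^ p) (β ^ p) → ∀ Q, Nda A em w jq jE σ Q →
      ∃ (x : Fq₀) (a b : E), SecA A em w jq D x a b ∧ val Q (a / α) ≠ 0

end Abs

section Conv

variable {A₀ K₀ A Ω k : Type*} [CommRing A₀] [IsDomain A₀] [IsDiscreteValuationRing A₀] [Field K₀]
  [Algebra A₀ K₀] [IsFractionRing A₀ K₀] [CommRing A] [IsDomain A] [ValuationRing A]
  [Field Ω] [Algebra A Ω] [IsFractionRing A Ω] [Field k]
  [Algebra A k] [Algebra A₀ k] [Algebra K₀ Ω]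
  {FM₀ Fq₀ : IntermediateField K₀ (LaurentSeries K₀)}
  {FM Fq : IntermediateField Ω (LaurentSeries Ω)}
  {E : IntermediateField k (LaurentSeries k)} {ι : Type*} [Fintype ι] {y : ι → LaurentSeries ℤ}
  {q : ℕ} [hq : Fact q.Prime] [CharP k q]
  {S₀ : SSD A₀ FM₀ Fq₀ E y q} {S : SSD A FM Fq E y q} (X : SExt S₀ S)

include X in
/-- integrality over the big field -/
theorem LR_of_emb {x : Fq₀} {a : LaurentSeries k} (h : LR A (X.Dq.emb x : LaurentSeries Ω) a) :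
    LR A₀ (x : LaurentSeries K₀) a := by
  have key : (x : LaurentSeries K₀) ∈ WL A₀ K₀ k := by
    rcases eq_or_ne x 0 with rfl | hx
    · exact zero_mem _
    obtain ⟨m, w, hw, e⟩ := X.scale hx
    have hq0 : algebraMap A₀ K₀ (q : A₀) ≠ 0 := by
      rw [Ne, map_eq_zero_iff _ (IsFractionRing.injective A₀ K₀)]
      exact X.q_ne
    have hqL : LR A₀ (HahnSeries.C (algebraMap A₀ K₀ (q : A₀)) : LaurentSeries K₀)
        (0 : LaurentSeries k) := by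
      refine (LR.const (K := K₀) (k := k) (q : A₀)).of_eq rfl ?_
      rw [SExt.redq, map_zero]
    have hwL : LR A₀ w (πL A₀ K₀ k ⟨w, hw.1⟩) := ⟨hw.1, rfl⟩
    by_cases hm : 0 ≤ m
    · obtain ⟨n, rfl⟩ := Int.eq_ofNat_of_zero_le hm
      rw [e, zpow_natCast]
      exact mul_mem (pow_mem hqL.1 n) hw.1
    · push Not at hm
      obtain ⟨n, hn⟩ := Int.eq_ofNat_of_zero_le (a := -m) (by omega)
      have hC : (HahnSeries.C (algebraMap A₀ K₀ (q : A₀)) : LaurentSeries K₀) ≠ 0 := by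
        rw [Ne, map_eq_zero]; exact hq0
      have e2 : w = HahnSeries.C (algebraMap A₀ K₀ (q : A₀)) ^ n * (x : LaurentSeries K₀) := by
        rw [e, ← zpow_natCast, ← mul_assoc, ← zpow_add₀ hC]
        have : (n : ℤ) + m = 0 := by omega
        rw [this, zpow_zero, one_mul]
      have h1 := LR_emb X.B hwL
      have h2 := LR_emb X.B hqL
      have h3 := (h2.pow n).mul h
      have e3 : coeffMap (algebraMap K₀ Ω) w =
          coeffMap (algebraMap K₀ Ω) (HahnSeries.C (algebraMap A₀ K₀ (q : A₀))) ^ n *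
            (X.Dq.emb x : LaurentSeries Ω) := by
        rw [X.coeq, ← map_pow, ← map_mul, ← e2]
      have h4 := (h1.of_eq e3 rfl).unique h3
      have hn0 : n ≠ 0 := by
        rintro rfl
        simp at hn
        omega
      rw [zero_pow hn0, zero_mul] at h4
      exact absurd h4 hw.2
  have h1 : LR A₀ (x : LaurentSeries K₀) (πL A₀ K₀ k ⟨_, key⟩) := ⟨key, rfl⟩
  have h2 := (LR_emb X.B h1).of_eq (X.coeq x).symm rfl
  exact h1.of_eq rfl (h2.unique h)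


theorem rda_iff {x : Fq₀} {a b : E} : Rda A X.Dq.emb S.w x a b ↔
    (x ∈ (X.CC 0).W ∧ x ∈ (X.CC 1).W) ∧ (X.CC 0).r x = a ∧ (X.CC 1).r x = b := by
  constructor
  · intro h
    have h0 := LR_of_emb X h.r0
    have h1 : LR A₀ (S₀.w x : LaurentSeries K₀) (b : LaurentSeries k) := by
      apply LR_of_emb X
      have := h.r1
      rwa [X.w] at this
    exact ⟨⟨h0.1, h1.1⟩, X.r0_eq h0, X.r1_eq h1⟩
  · rintro ⟨⟨h0, h1⟩, rfl, rfl⟩
    have h := X.hasRed (X.hasRed_r h0 h1)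
    exact ⟨h.1, h.2⟩

end Conv

section Conv2

variable {A₀ K₀ A Ω k : Type*} [CommRing A₀] [IsDomain A₀] [IsDiscreteValuationRing A₀] [Field K₀]
  [Algebra A₀ K₀] [IsFractionRing A₀ K₀] [CommRing A] [IsDomain A] [ValuationRing A]
  [Field Ω] [IsAlgClosed Ω] [CharZero Ω] [Algebra A Ω] [IsFractionRing A Ω] [Field k]
  [IsAlgClosed k] [Algebra A k] [Algebra A₀ k] [Algebra K₀ Ω]
  {FM₀ Fq₀ : IntermediateField K₀ (LaurentSeries K₀)}
  {FM Fq : IntermediateField Ω (LaurentSeries Ω)}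
  {E : IntermediateField k (LaurentSeries k)} {ι : Type*} [Fintype ι] {y : ι → LaurentSeries ℤ}
  {q : ℕ} [hq : Fact q.Prime] [CharP k q] [PerfectRing k q]
  {S₀ : SSD A₀ FM₀ Fq₀ E y q} {S : SSD A FM Fq E y q} (X : SExt S₀ S)
  [FunField k E] [FunField Ω FM] [FunField Ω Fq] (hS : SP S.G)
  (hgen : rrGenus k E = rrGenus Ω FM) (P : S.Pol)
  [Algebra A₀ Fq₀] [IsScalarTower A₀ K₀ Fq₀] [Algebra A₀ E] [IsScalarTower A₀ k E]
  [Algebra.IsAlgebraic K₀ Ω] [CharZero K₀]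

theorem secA_iff {D : Divisor Ω Fq} {x : Fq₀} {a b : E} :
    SecA A X.Dq.emb S.w S.jq D x a b ↔
      x ∈ (X.cm hS).M0 D ∧ (X.CC 0).r x = a ∧ (X.CC 1).r x = b := by
  constructor
  · intro h
    obtain ⟨h1, h2⟩ := (rda_iff X).1 h.rd
    refine ⟨⟨?_, fun v hv => ?_⟩, h2⟩
    · exact X.mem_WW_iff.2 (by rw [Fin.forall_fin_two]; exact h1)
    · rw [X.cm_embt] at hv
      exact h.ge v hv
  · rintro ⟨h, h2⟩
    have h1 := X.mem_WW_iff.1 h.1
    refine ⟨(rda_iff X).2 ⟨⟨h1 0, h1 1⟩, h2⟩, fun v hv => ?_⟩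
    have := h.2 v (by rw [X.cm_embt]; exact hv)
    exact this

include hgen in
theorem gl_of_nda {Q : Place k E} (h : Nda A X.Dq.emb S.w S.jq S₀.jE S₀.sg Q) : X.Gl hS Q := by
  have hB : ∀ x ∈ (X.cm hS).B, val Q ((X.CC 0).r x) = val (S₀.fd.g • Q) ((X.CC 1).r x) := by
    intro x hx
    have h1 : SecA A X.Dq.emb S.w S.jq 0 x ((X.CC 0).r x) ((X.CC 1).r x) := by
      rw [secA_iff X hS]
      refine ⟨⟨hx.1, fun v hv => ?_⟩, rfl, rfl⟩
      rw [Finsupp.zero_apply]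
      exact hx.2 v hv
    rw [h.2 x _ _ h1]
    refine S₀.fd.val_σ (X.reg1 hS hx _ ?_)
    rw [SExt.g_ord]; exact h.1
  refine ⟨?_, hB⟩
  apply FrobData.place_eq_of_val (SExt.jE_trans (S₀ := S₀))
  · rw [SExt.g_ord, SExt.g_ord]; exact h.1
  · exact h.1
  · intro c hc
    obtain ⟨x, hx, hr⟩ := X.lift hS hgen hc
    have h1 := hB _ (X.inc_mem_B hS hx hr)
    rw [X.r0_of (b := S₀.sg c) (SSD.hasRed_inc (S := S₀) hx),
      X.r1_of (a := c) (SSD.hasRed_inc (S := S₀) hx)] at h1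
    rw [h1]
    refine (S₀.fd.val_σ (P := S₀.fd.g • Q) (hc _ ?_)).symm
    rw [SExt.g_ord, SExt.g_ord]; exact h.1

/-- the abstract form of realisation -/
structure RlA (p : ℕ) : Prop where
  sp : ∀ α : Fin 2 → E, (∀ j, α j ≠ 0) → (∀ j (Q : Place k E), (p : ℤ) ∣ Q.ord (α j)) →
    ∃ g : Fq₀, g ≠ 0 ∧ (∀ v : Place Ω Fq, (p : ℤ) ∣ v.ord (X.Dq.emb g)) ∧
      (∀ j, (X.CC j).v g = 0) ∧ ∃ β : Fin 2 → E, ∀ j, β j ≠ 0 ∧ (X.CC j).r g = α j * β j ^ p
  tor : ∀ ρ : Place k E → k, (∀ Q, ρ Q ^ p = 1) →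
    ∃ (g : Fq₀) (D : Divisor Ω Fq) (γ : Fin 2 → E), g ≠ 0 ∧
      (∀ v, (p : ℤ) * D v = v.ord (X.Dq.emb g)) ∧
      (∀ j, (X.CC j).v g = 0) ∧ (∀ j, γ j ≠ 0 ∧ (X.CC j).r g = γ j ^ p) ∧
      ∀ Q : Place k E, 0 ≤ Q.ord S₀.jE → X.Gl hS Q → ∀ x ∈ (X.cm hS).M0 D,
        val Q ((X.CC 0).r x / γ 0) = ρ Q * val (S₀.fd.g • Q) ((X.CC 1).r x / γ 1)

variable {X} {hS} in
include hgen P in
/-- **the bridge, abstract form** -/
theorem RlA.rza {V : X.MU hS} {p : ℕ} (hp : p ≠ 0) (h : RlA X hS p) :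
    RZa A X.Dq.emb S.w S.jq S₀.jE S₀.sg p where
  sp a b ha hb hda hdb := by
    obtain ⟨g, hg, hd, hv, β, hβ⟩ := h.sp ![a, b] (by rw [Fin.forall_fin_two]; exact ⟨ha, hb⟩)
      (by rw [Fin.forall_fin_two]; exact ⟨hda, hdb⟩)
    refine ⟨g, β 0, β 1, hg, hd, (hβ 0).1, (hβ 1).1, (rda_iff X).2
      ⟨⟨Car.Comp.mem_of_v (hv 0).ge, Car.Comp.mem_of_v (hv 1).ge⟩, (hβ 0).2, (hβ 1).2⟩⟩
  tor ρ hρ := by
    obtain ⟨g, D, γ, hg, hD, hv, hγ, ht⟩ := h.tor ρ hρ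
    refine ⟨g, D, γ 0, γ 1, hg, hD, (hγ 0).1, (hγ 1).1, (rda_iff X).2
      ⟨⟨Car.Comp.mem_of_v (hv 0).ge, Car.Comp.mem_of_v (hv 1).ge⟩, (hγ 0).2, (hγ 1).2⟩, ?_⟩
    intro Q hQ x a b hx'
    obtain ⟨hx, e1, e2⟩ := (secA_iff X hS).1 hx'
    rw [← e1, ← e2, ht Q hQ.1 (gl_of_nda X hS hgen hQ) x hx]
    congr 1
    refine (S₀.fd.val_σ ?_).symm
    have hQ' : 0 ≤ (S₀.fd.g • Q).ord ((X.cm hS).tb 1) := by
      rw [X.ord_tb hS, SExt.g_ord]; exact hQ.1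
    exact ((X.cm hS).ge_div hg hv hp hD hx hQ' (hγ 1).2.symm).1
  gen g D α β hg hD hα hβ hr Q hQ := by
    obtain ⟨⟨h0, h1⟩, h2, h3⟩ := (rda_iff X).1 hr
    have hv : ∀ j, ((X.cm hS).comp j).v g = 0 := by
      rw [Fin.forall_fin_two]
      constructor
      · refine (Car.Comp.r_ne_zero_iff hg).1 ?_
        change (X.CC 0).r g ≠ 0
        rw [h2]
        exact pow_ne_zero _ hα
      · refine (Car.Comp.r_ne_zero_iff hg).1 ?_
        change (X.CC 1).r g ≠ 0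
        rw [h3]
        exact pow_ne_zero _ hβ
    have hQ' : 0 ≤ Q.ord ((X.cm hS).tb 0) := (X.ord_tb hS 0 Q).2 hQ.1
    obtain ⟨s, hs, hsQ⟩ := (X.cm hS).exists_gen_at (X.good hS hgen P V) hg hv hp hD hQ'
    refine ⟨s, _, _, (secA_iff X hS).2 ⟨hs, rfl, rfl⟩, fun h0 => hsQ ?_⟩
    have h4 := ((X.cm hS).ge_div hg hv hp hD hs hQ' h2.symm).2
    rw [← h4]
    change val Q ((X.CC 0).r s / α) ^ p = 0
    rw [h0, zero_pow hp]

end Conv2

end

end Fermat.Agent.TyC
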