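import Fermat.Agent.TyC.RigG
import Fermat.Agent.CarM.DescP
import Fermat.Agent.MW.Ram

/-!
# Functions of level `q M` on the model of level `q ^ 2 M`
-/

set_option autoImplicit false
set_option linter.style.haveILetI false
set_option linter.unusedSectionVars false

noncomputable section

namespace Fermat.Agent.TyC

open ModularCurve Polynomial IntermediateField Fermat.Agent.ModPoly Fermat.Agent.Cusp AlgebraicCurve
open Fermat.Agent.SemiSt Fermat.Agent.CarE Fermat.Agent.HeckeProd Fermat.Agent.Curve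
open Fermat.Agent.RedMod Fermat.Agent.Car Fermat.Agent.RR Fermat.Agent.Red Fermat.Agent.PRem
open Fermat.Agent.Nod Fermat.Agent.CarM Fermat.Agent.MW

variable {R0 K0 A Ω k : Type*} [CommRing R0] [IsDomain R0] [IsDiscreteValuationRing R0]
  [Field K0] [Algebra R0 K0]
  [IsFractionRing R0 K0] [CommRing A] [IsDomain A] [ValuationRing A] [Field Ω]
  [IsAlgClosed Ω] [CharZero Ω] [CharZero K0]
  [Algebra A Ω] [IsFractionRing A Ω] [Field k] [Algebra A k] [Algebra K0 Ω] [Algebra R0 A]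
  [Algebra R0 k] {q M : ℕ} [hq : Fact q.Prime] [NeZero M] [CharP k q]
  (B : Base q R0 K0 A Ω k) (hco : q.Coprime M)
  {z : Aˣ} (hz : z ^ q = 1 ∧ z ≠ 1) (hM : (M : k) ≠ 0)
  [IsAlgClosed k]

set_option synthInstance.maxHeartbeats 400000

section Defs

variable (A Ω k) in
/-- the reductions of a function of level `q M` along the two components -/
structure Rd2 (x : FF K0 (q * M)) (a b : FF k M) : Prop where
  r0 : Rd A (CarE.emb K0 Ω (q * M) x : LaurentSeries Ω) (a : LaurentSeries k)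
  r1 : Rd A (w Ω hco (CarE.emb K0 Ω (q * M) x) : LaurentSeries Ω) (b : LaurentSeries k)

variable (A Ω k) in
/-- sections over the finite chart -/
structure SecD (D : Divisor Ω (FF Ω (q * M))) (x : FF K0 (q * M)) (a b : FF k M) : Prop where
  rd : Rd2 A Ω k hco x a b
  ge : ∀ v : Place Ω (FF Ω (q * M)), 0 ≤ v.ord (jF' Ω (q * M)) →
    Ge v (D v) (CarE.emb K0 Ω (q * M) x)

variable (K0 A Ω k q M) in
/-- a point on both components -/
def Nd (Q : Place k (FF k M)) : Prop := 0 ≤ Q.ord (jF' k M) ∧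
  ∀ (x : FF K0 (q * M)) (a b : FF k M), SecD A Ω k hco 0 x a b →
    val Q a = val Q (Frq k q M b)

variable (K0 A Ω k q M) in
/-- **realisation of reductions and gluing data at level `q M`** -/
structure RZ (p : ℕ) : Prop where
  sp : ∀ a b : FF k M, a ≠ 0 → b ≠ 0 → (∀ Q : Place k (FF k M), (p : ℤ) ∣ Q.ord a) →
    (∀ Q : Place k (FF k M), (p : ℤ) ∣ Q.ord b) →
    ∃ (g : FF K0 (q * M)) (α β : FF k M), g ≠ 0 ∧
      (∀ v : Place Ω (FF Ω (q * M)), (p : ℤ) ∣ v.ord (CarE.emb K0 Ω (q * M) g)) ∧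
      α ≠ 0 ∧ β ≠ 0 ∧ Rd2 A Ω k hco g (a * α ^ p) (b * β ^ p)
  tor : ∀ ρ : Place k (FF k M) → k, (∀ Q, ρ Q ^ p = 1) →
    ∃ (g : FF K0 (q * M)) (D : Divisor Ω (FF Ω (q * M))) (α β : FF k M), g ≠ 0 ∧
      (∀ v, (p : ℤ) * D v = v.ord (CarE.emb K0 Ω (q * M) g)) ∧ α ≠ 0 ∧ β ≠ 0 ∧
      Rd2 A Ω k hco g (α ^ p) (β ^ p) ∧
      ∀ Q, Nd K0 A Ω k q M hco Q → ∀ (x : FF K0 (q * M)) (a b : FF k M),
        SecD A Ω k hco D x a b → val Q (a / α) = ρ Q * val Q (Frq k q M (b / β))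
  gen : ∀ (g : FF K0 (q * M)) (D : Divisor Ω (FF Ω (q * M))) (α β : FF k M), g ≠ 0 →
    (∀ v, (p : ℤ) * D v = v.ord (CarE.emb K0 Ω (q * M) g)) → α ≠ 0 → β ≠ 0 →
    Rd2 A Ω k hco g (α ^ p) (β ^ p) → ∀ Q, Nd K0 A Ω k q M hco Q →
      ∃ (x : FF K0 (q * M)) (a b : FF k M), SecD A Ω k hco D x a b ∧ val Q (a / α) ≠ 0

end Defs

section Incl

variable (K0) in
/-- the inclusion of level `q M` -/
def oi (q M : ℕ) [Fact q.Prime] [NeZero M] : FF K0 (q * M) →ₐ[K0] FF K0 (q ^ 2 * M) :=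
  incl K0 (dvd_low q M)

/-- the twisted inclusion of level `q M` -/
def ow : FF K0 (q * M) →ₐ[K0] FF K0 (q ^ 2 * M) :=
  (w0 hco B.alg B.fixed).toAlgHom.comp (oi K0 q M)

theorem ow_apply (x : FF K0 (q * M)) : ow B hco x = w0 hco B.alg B.fixed (oi K0 q M x) := rfl

variable (Ω) in
/-- the inclusion over the big field -/
def Oi (q M : ℕ) [Fact q.Prime] [NeZero M] : FF Ω (q * M) →ₐ[Ω] FF Ω (q ^ 2 * M) :=
  incl Ω (dvd_low q M)

variable (Ω) in
/-- the twisted inclusion over the big field -/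
def Ow : FF Ω (q * M) →ₐ[Ω] FF Ω (q ^ 2 * M) :=
  (w2 Ω hco).toAlgHom.comp (Oi Ω q M)

theorem emb_oi (x : FF K0 (q * M)) :
    CarE.emb K0 Ω (q ^ 2 * M) (oi K0 q M x) = Oi Ω q M (CarE.emb K0 Ω (q * M) x) :=
  CarE.emb_incl _ _

theorem emb_ow (x : FF K0 (q * M)) :
    CarE.emb K0 Ω (q ^ 2 * M) (ow B hco x) = Ow Ω hco (CarE.emb K0 Ω (q * M) x) := by
  rw [ow_apply, emb_w0, emb_oi]
  rfl

variable {B hco hz}

variable {x : FF K0 (q * M)} {a b : FF k M} (h : Rd2 A Ω k hco x a b)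

include h

theorem rd_oi0 : Rd A ((E3 B hco hz 0).φ (oi K0 q M x)) (a : LaurentSeries k) := by
  have e : (E3 B hco hz 0).φ (oi K0 q M x) = (CarE.emb K0 Ω (q * M) x : LaurentSeries Ω) := by
    change mphi (phi0 Ω) (oi K0 q M x) = _
    rw [mphi_apply, emb_oi, phi0_apply, Oi, coe_incl]
  rw [e]
  exact h.r0

theorem rd_oi1 : Rd A ((E3 B hco hz 1).φ (oi K0 q M x)) (a : LaurentSeries k) := by
  have e : (E3 B hco hz 1).φ (oi K0 q M x) = (CarE.emb K0 Ω (q * M) x : LaurentSeries Ω) := by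
    change mphi (phi1 hco (hzΩ Ω hz)) (oi K0 q M x) = _
    rw [mphi_apply, emb_oi, Oi, phi1_low]
  rw [e]
  exact h.r0

theorem rd_oi2 : Rd A ((E3 B hco hz 2).φ (oi K0 q M x))
    (Frq k q M b : LaurentSeries k) := by
  have e : (E3 B hco hz 2).φ (oi K0 q M x) =
      qExpand Ω q (w Ω hco (CarE.emb K0 Ω (q * M) x) : LaurentSeries Ω) := by
    change mphi (phi2 hco) (oi K0 q M x) = _
    rw [mphi_apply, emb_oi, Oi, phi2_low]
  rw [e, coe_Frq]
  exact rd_qExpand h.r1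

theorem oi_W (j : Fin 3) : oi K0 q M x ∈ ((cm B hco hz hM).comp j).W := by
  match j with
  | 0 => exact mem_W_of_Rd hM (j := 0) (rd_oi0 h)
  | 1 => exact mem_W_of_Rd hM (j := 1) (rd_oi1 h)
  | 2 => exact mem_W_of_Rd hM (j := 2) (rd_oi2 h)

theorem r_oi0 : ((cm B hco hz hM).comp 0).r (oi K0 q M x) = a :=
  Subtype.ext (coe_r_of_Rd hM (j := 0) (rd_oi0 h))

theorem r_oi1 : ((cm B hco hz hM).comp 1).r (oi K0 q M x) = a :=
  Subtype.ext (coe_r_of_Rd hM (j := 1) (rd_oi1 h))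

theorem r_oi2 : ((cm B hco hz hM).comp 2).r (oi K0 q M x) = Frq k q M b :=
  Subtype.ext (coe_r_of_Rd hM (j := 2) (rd_oi2 h))

theorem ow_W (j : Fin 3) : ow B hco x ∈ ((cm B hco hz hM).comp j).W := by
  have h3 := w0_mem_iff B hco hz (oi K0 q M x)
  match j with
  | 0 => exact h3.2.2.2 (oi_W hM h 2)
  | 1 => exact h3.2.1.2 (oi_W hM h 1)
  | 2 => exact h3.1.2 (oi_W hM h 0)

theorem r_ow0 : ((cm B hco hz hM).comp 0).r (ow B hco x) = Frq k q M b :=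
  (r_w0_0 B hco hz (FF k M) (res_mem B hco hz hM) (oi K0 q M x)).trans (r_oi2 hM h)

theorem r_ow1 : ((cm B hco hz hM).comp 1).r (ow B hco x) = a :=
  (r_w0_1 B hco hz (FF k M) (res_mem B hco hz hM) (oi K0 q M x)).trans (r_oi1 hM h)

theorem r_ow2 : ((cm B hco hz hM).comp 2).r (ow B hco x) = a :=
  (r_w0_2 B hco hz (FF k M) (res_mem B hco hz hM) (oi K0 q M x)).trans (r_oi0 hM h)

end Incl

section Reg

variable [FunField k (FF k M)] [FunField Ω (FF Ω M)] [FunField Ω (FF Ω (q * M))]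
  [FunField Ω (FF Ω (q ^ 2 * M))]

theorem ord_Oi {v : Place Ω (FF Ω (q ^ 2 * M))} (hv : 0 ≤ v.ord (tt Ω q M)) :
    0 ≤ (rs (Oi Ω q M) v).ord (jF' Ω (q * M)) := by
  have h1 := ord_map (Oi Ω q M) v (jF' Ω (q * M))
  have e : Oi Ω q M (jF' Ω (q * M)) = jF' Ω (q ^ 2 * M) := incl_jF _
  rw [e] at h1
  have h2 : 0 ≤ v.ord (jF' Ω (q ^ 2 * M)) := (j0_of_t0 v).1 hv
  rw [h1] at h2
  exact nonneg_of_mul_nonneg_right h2 (re_pos _ v)

include B hz hM in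
theorem ord_Ow {v : Place Ω (FF Ω (q ^ 2 * M))} (hv : 0 ≤ v.ord (tt Ω q M)) :
    0 ≤ (rs (Ow Ω hco) v).ord (jF' Ω (q * M)) := by
  have h1 := ord_map (Ow Ω hco) v (jF' Ω (q * M))
  have e : Ow Ω hco (jF' Ω (q * M)) = w2 Ω hco (jF' Ω (q ^ 2 * M)) := by
    change w2 Ω hco (incl Ω (dvd_low q M) (jF' Ω (q * M))) = _
    rw [incl_jF]
  have h3 : Reg Ω (tt Ω q M) (jF' Ω (q ^ 2 * M)) := fun u hu =>
    Ge.of_le ((j0_of_t0 u).1 hu)
  have h4 := reg_map (w2 Ω hco : FF Ω (q ^ 2 * M) →ₐ[Ω] FF Ω (q ^ 2 * M))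
    (transcendental_tt B hco hz hM) h3
  have h5 : (w2 Ω hco : FF Ω (q ^ 2 * M) →ₐ[Ω] FF Ω (q ^ 2 * M)) (tt Ω q M) = tt Ω q M :=
    CarM.w2_tt hco
  rw [h5] at h4
  have h2 : 0 ≤ v.ord (Ow Ω hco (jF' Ω (q * M))) := by
    rw [e]
    rcases h4 v hv with h6 | h6
    · change w2 Ω hco (jF' Ω (q ^ 2 * M)) = 0 at h6
      rw [h6, v.ord_zero]
    · exact h6
  rw [h1] at h2
  exact nonneg_of_mul_nonneg_right h2 (re_pos _ v)

/-- lifting the divisor data -/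
theorem exists_E {φ : FF Ω (q * M) →ₐ[Ω] FF Ω (q ^ 2 * M)} {p : ℕ} (hp : p ≠ 0)
    {G : FF Ω (q * M)} {D : Divisor Ω (FF Ω (q * M))} (hD : ∀ v, (p : ℤ) * D v = v.ord G) :
    ∃ E : Divisor Ω (FF Ω (q ^ 2 * M)), (∀ u, (p : ℤ) * E u = u.ord (φ G)) ∧
      ∀ u, E u = re φ u * D (rs φ u) := by
  obtain ⟨E, hE⟩ := exists_div_divisor (f := φ G) hp (fun u => by
    rw [ord_map φ u G, ← hD]
    exact ⟨re φ u * D (rs φ u), by ring⟩)
  refine ⟨E, hE, fun u => ?_⟩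
  have h1 := hE u
  rw [ord_map φ u G, ← hD] at h1
  have hp' : (p : ℤ) ≠ 0 := by exact_mod_cast hp
  apply mul_left_cancel₀ hp'
  rw [h1]; ring

theorem ge_of_rs {φ : FF Ω (q * M) →ₐ[Ω] FF Ω (q ^ 2 * M)} {u : Place Ω (FF Ω (q ^ 2 * M))}
    {n : ℤ} {X : FF Ω (q * M)} (h : Ge (rs φ u) n X) : Ge u (re φ u * n) (φ X) := by
  rcases h with h | h
  · left; rw [h, map_zero]
  · right
    rw [ord_map φ u X]
    exact mul_le_mul_of_nonneg_left h (re_pos φ u).le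

/-- the points on all components satisfy the condition at level `q M` -/
theorem nd_of_CP {Q : Place k (FF k M)} (hQ : CP (cm B hco hz hM) Q) :
    Nd K0 A Ω k q M hco Q := by
  refine ⟨?_, fun x a b h => ?_⟩
  · have := hQ.1 0
    rwa [cm_tb, ord_tb] at this
  · have hB : oi K0 q M x ∈ (cm B hco hz hM).B := by
      rw [mem_B_iff]
      refine ⟨fun j => oi_W hM h.rd j, fun v hv => ?_⟩
      rw [emb_oi]
      have := ge_of_rs (h.ge _ (ord_Oi hv))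
      rwa [Finsupp.zero_apply, mul_zero] at this
    have h1 := hQ.2 0 2 _ hB
    rwa [r_oi0 hM h.rd, r_oi2 hM h.rd] at h1

variable (p : ℕ) (hp : (p : k) ≠ 0)

include hp in
theorem p_ne : p ≠ 0 := by rintro rfl; simp at hp

variable {B hco hz p}

include hp in
/-- root data of functions of level `q M` -/
theorem rtd_oi {g : FF K0 (q * M)} (hg : g ≠ 0) {D : Divisor Ω (FF Ω (q * M))}
    (hD : ∀ v, (p : ℤ) * D v = v.ord (CarE.emb K0 Ω (q * M) g)) {α β : FF k M} (hα : α ≠ 0)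
    (hβ : β ≠ 0) (h : Rd2 A Ω k hco g (α ^ p) (β ^ p)) :
    ∃ E : Divisor Ω (FF Ω (q ^ 2 * M)), (∀ u, E u = re (Oi Ω q M) u * D (rs (Oi Ω q M) u)) ∧
      RtD (cm B hco hz hM) p (oi K0 q M g) E ![α, α, Frq k q M β] := by
  have hp0 := p_ne p hp
  obtain ⟨E, hE, hE'⟩ := exists_E (φ := Oi Ω q M) hp0 hD
  have hg0 : oi K0 q M g ≠ 0 := (_root_.map_ne_zero _).2 hg
  have hFβ : Frq k q M β ≠ 0 := (_root_.map_ne_zero _).2 hβ
  have hγ : ∀ j, (![α, α, Frq k q M β] : Fin 3 → FF k M) j ^ p =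
      ((cm B hco hz hM).comp j).r (oi K0 q M g) := by
    intro j
    match j with
    | 0 => exact (r_oi0 hM h).symm
    | 1 => exact (r_oi1 hM h).symm
    | 2 =>
      rw [r_oi2 hM h, map_pow]
      rfl
  refine ⟨E, hE', hg0, fun j => ?_, fun v => ?_, hγ⟩
  · rw [← Comp.r_ne_zero_iff hg0, ← hγ]
    apply pow_ne_zero
    match j with
    | 0 => exact hα
    | 1 => exact hα
    | 2 => exact hFβ
  · rw [cm_emb, emb_oi]; exact hE v

include hp in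
theorem rtd_ow {g : FF K0 (q * M)} (hg : g ≠ 0) {D : Divisor Ω (FF Ω (q * M))}
    (hD : ∀ v, (p : ℤ) * D v = v.ord (CarE.emb K0 Ω (q * M) g)) {α β : FF k M} (hα : α ≠ 0)
    (hβ : β ≠ 0) (h : Rd2 A Ω k hco g (α ^ p) (β ^ p)) :
    ∃ E : Divisor Ω (FF Ω (q ^ 2 * M)), (∀ u, E u = re (Ow Ω hco) u * D (rs (Ow Ω hco) u)) ∧
      RtD (cm B hco hz hM) p (ow B hco g) E ![Frq k q M β, α, α] := by
  have hp0 := p_ne p hp
  obtain ⟨E, hE, hE'⟩ := exists_E (φ := Ow Ω hco) hp0 hD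
  have hg0 : ow B hco g ≠ 0 := (_root_.map_ne_zero _).2 hg
  have hFβ : Frq k q M β ≠ 0 := (_root_.map_ne_zero _).2 hβ
  have hγ : ∀ j, (![Frq k q M β, α, α] : Fin 3 → FF k M) j ^ p =
      ((cm B hco hz hM).comp j).r (ow B hco g) := by
    intro j
    match j with
    | 0 =>
      rw [r_ow0 hM h, map_pow]
      rfl
    | 1 => exact (r_ow1 hM h).symm
    | 2 => exact (r_ow2 hM h).symm
  refine ⟨E, hE', hg0, fun j => ?_, fun v => ?_, hγ⟩
  · rw [← Comp.r_ne_zero_iff hg0, ← hγ]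
    apply pow_ne_zero
    match j with
    | 0 => exact hFβ
    | 1 => exact hα
    | 2 => exact hα
  · rw [cm_emb, emb_ow]; exact hE v

end Reg

end Fermat.Agent.TyC
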