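import Fermat.Agent.TyC.BrA
import Fermat.Agent.TyC.RZ

/-!
# The bridge: the fields of level `Γ₀(q M)`
-/

set_option autoImplicit false
set_option linter.unusedSectionVars false
set_option linter.style.haveILetI false

open scoped MatrixGroups
open UpperHalfPlane ModularForm Complex Matrix.SpecialLinearGroup CongruenceSubgroup
open Fermat.Agent.AL Fermat.Agent.ALCoh
open Fermat.Agent.KumG Fermat.Agent.Cov ModularCurve Fermat.Agent.ModPoly Fermat.Agent.GamH
  Fermat.Agent.RedMod Fermat.Agent.Red AlgebraicCurve Fermat.Agent.RR Polynomial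
  Fermat.Agent.SSH Fermat.Agent.SemiSt Fermat.Agent.Nod Fermat.Agent.Curve Fermat.Agent.E2
  Fermat.Agent.Cusp

namespace Fermat.Agent.TyC

noncomputable section

attribute [local instance 10000] fastAlg

section Top

variable {M : ℕ} [NeZero M]

instance factTop : Fact ((-1 : (ZMod M)ˣ) ∈ (⊤ : Subgroup (ZMod M)ˣ)) := ⟨Subgroup.mem_top _⟩

theorem FH_top {k : Type*} [Field k] [IsAlgClosed k] (hk : (M : k) ≠ 0) (hM3 : 3 ≤ M)
    {H : Subgroup (ZMod M)ˣ} (hH : H = ⊤) : FH k M H = FF k M := by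
  refine le_antisymm (FH_le le_rfl ?_) FF_le_FH
  have h1 := coeff_pZ_mem_FF (k := k) (H := H) hk hM3 (hH ▸ Subgroup.mem_top _) 0
  have h2 : pZ H = X - C (zs H 1) := by
    have hu : ∀ c : (ZMod M)ˣ ⧸ H, c = QuotientGroup.mk 1 := by
      intro c
      obtain ⟨a, rfl⟩ := QuotientGroup.mk_surjective c
      exact QuotientGroup.eq.2 (hH ▸ Subgroup.mem_top _)
    rw [pZ, Fintype.prod_eq_single (QuotientGroup.mk (s := H) 1)
      (fun c hc => absurd (hu c) hc), zq_mk]
  rw [h2] at h1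
  have h3 : (X - C (zs H 1) : (LaurentSeries ℤ)[X]).coeff 0 = - zs H 1 := by
    simp
  rw [h3, ModPoly.cst, map_neg] at h1
  exact neg_mem_iff.1 h1

variable {q : ℕ} [hq : Fact q.Prime]

theorem HM_top : HM (dvd_mul_left M q) (⊤ : Subgroup (ZMod M)ˣ) = ⊤ := Subgroup.comap_top _

theorem three_le_mul (hM3 : 3 ≤ M) : 3 ≤ q * M := hM3.trans (Nat.le_mul_of_pos_left M hq.out.pos)

theorem FG_top {K : Type*} [Field K] [IsAlgClosed K] [CharZero K] [Algebra ℚ K] (ι : K →+* ℂ)
    (hM3 : 3 ≤ M) : FG (Gq q M ⊤) K = FF K (q * M) := by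
  have h1 := FG_eq_FH (K := K) (N := q * M) (H := HM (dvd_mul_left M q) ⊤) ι
    (three_le_mul hM3) (neg_mem_HM (dvd_mul_left M q) _ (Subgroup.mem_top _))
  refine Eq.trans h1 ?_
  exact FH_top (k := K) (by exact_mod_cast NeZero.ne (q * M)) (three_le_mul hM3) HM_top

theorem FF_le_top {K : Type*} [Field K] [Algebra ℚ K] (hM3 : 3 ≤ M) :
    FF K (q * M) ≤ FG (Gq q M ⊤) K :=
  FF_le_FH.trans (FH_le_FG (K := K) (N := q * M) (H := HM (dvd_mul_left M q) ⊤)
    (three_le_mul hM3) (neg_mem_HM (dvd_mul_left M q) _ (Subgroup.mem_top _)))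

theorem FG_top0 {K₀ K : Type*} [Field K₀] [Algebra ℚ K₀] [Field K] [IsAlgClosed K] [CharZero K]
    [Algebra ℚ K] [Algebra K₀ K] [Algebra.IsAlgebraic K₀ K] (ι : K →+* ℂ)
    (hM3 : 3 ≤ M) : FG (Gq q M ⊤) K₀ = FF K₀ (q * M) := by
  refine le_antisymm (fun x hx => ?_) (FF_le_top hM3)
  have h1 : coeffMap (algebraMap K₀ K) x ∈ FF K (q * M) := by
    rw [← FG_top ι hM3]
    exact E2.coeffMap_mem_FG _ hx
  obtain ⟨y, hy⟩ := CarE.exists_of_coeff (K := K₀) (Ω := K) (N := q * M)
    (y := ⟨coeffMap (algebraMap K₀ K) x, h1⟩) (fun m => ⟨x.coeff m, (coeffMap_coeff _ _ _).symm⟩)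
  have h2 : coeffMap (algebraMap K₀ K) (y : LaurentSeries K₀) = coeffMap (algebraMap K₀ K) x :=
    congrArg Subtype.val hy
  have h3 : (y : LaurentSeries K₀) = x := (coeffMap (algebraMap K₀ K)).injective h2
  rw [← h3]
  exact y.2

theorem mem_GH_top {γ : SL(2, ℤ)} (h : γ ∈ Gamma0 M) : γ ∈ GH M (⊤ : Subgroup (ZMod M)ˣ) := by
  rw [mem_GH_dd h]
  obtain ⟨u, hu⟩ := isUnit_dd h
  exact ⟨u, Subgroup.mem_top _, hu.symm⟩

section W

variable {K : Type*} [Field K] [CharZero K] [Algebra ℚ K] (ι : K →+* ℂ)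
  (D : WData q M (⊤ : Subgroup (ZMod M)ˣ)) (hM3 : 3 ≤ M)

theorem wE_incl_top (x : FG (GH M (⊤ : Subgroup (ZMod M)ˣ)) K) :
    (wE ι D hM3 (IntermediateField.inclusion (incl_le K) x) : LaurentSeries K) =
      qExpand K q (x : LaurentSeries K) := by
  rw [wE_level, diaK_of_mem ι (sQ_mem D.h) (mem_GH_top (sQ_mem D.h)) x]

theorem FF_le_topM {K : Type*} [Field K] [Algebra ℚ K] (hM3 : 3 ≤ M) :
    FF K M ≤ FG (GH M (⊤ : Subgroup (ZMod M)ˣ)) K :=
  FF_le_FH.trans (FH_le_FG (K := K) (N := M) (H := (⊤ : Subgroup (ZMod M)ˣ))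
    hM3 (Subgroup.mem_top _))

end W

section WAbs

variable {K : Type*} [Field K] [CharZero K] [IsAlgClosed K] (hco : q.Coprime M)
  {F G : IntermediateField K (LaurentSeries K)} (hF : FF K (q * M) ≤ F) (hGF : G ≤ F)
  (hMG : FF K M ≤ G) (W : F ≃ₐ[K] F)
  (hW : ∀ x : G, (W (IntermediateField.inclusion hGF x) : LaurentSeries K) =
    qExpand K q (x : LaurentSeries K)) (hWW : ∀ x, W (W x) = x)

include hF hMG hW hWW in
theorem W_eq_w (x : F) (x' : FF K (q * M)) (e : (x : LaurentSeries K) = x') :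
    (W x : LaurentSeries K) = (SemiSt.w K hco x' : LaurentSeries K) := by
  let φ₁ : FF K (q * M) →ₐ[K] LaurentSeries K :=
    F.val.comp ((W : F →ₐ[K] F).comp (IntermediateField.inclusion hF))
  let φ₂ : FF K (q * M) →ₐ[K] LaurentSeries K :=
    (FF K (q * M)).val.comp (SemiSt.w K hco : _ →ₐ[K] _)
  have h1 : ∀ y : FF K M, IntermediateField.inclusion hF (incl K (dvd_mul_left M q) y) =
      IntermediateField.inclusion hGF (IntermediateField.inclusion hMG y) := fun y => by
    apply Subtype.ext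
    rw [IntermediateField.coe_inclusion, IntermediateField.coe_inclusion,
      IntermediateField.coe_inclusion, coe_incl]
  have h2 : ∀ y : FF K M, IntermediateField.inclusion hF (qe K q M y) =
      W (IntermediateField.inclusion hGF (IntermediateField.inclusion hMG y)) := fun y => by
    apply Subtype.ext
    rw [hW, IntermediateField.coe_inclusion, IntermediateField.coe_inclusion, coe_qe]
  have g1 : ∀ y : FF K M, φ₁ (incl K (dvd_mul_left M q) y) = φ₂ (incl K (dvd_mul_left M q) y) := by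
    intro y
    change (W (IntermediateField.inclusion hF
      (incl K (dvd_mul_left M q) y)) : LaurentSeries K) =
        (SemiSt.w K hco (incl K (dvd_mul_left M q) y) : LaurentSeries K)
    rw [h1, hW, w_incl, coe_qe, IntermediateField.coe_inclusion]
  have g2 : ∀ y : FF K M, φ₁ (qe K q M y) = φ₂ (qe K q M y) := by
    intro y
    change (W (IntermediateField.inclusion hF
      (qe K q M y)) : LaurentSeries K) = (SemiSt.w K hco (qe K q M y) : LaurentSeries K)
    rw [h2, hWW, w_qe, coe_incl, IntermediateField.coe_inclusion,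
      IntermediateField.coe_inclusion]
  have key : φ₁ = φ₂ := by
    apply hom_ext
    intro m hm
    obtain ⟨r, r', d, rfl, hr, hd⟩ := exists_factor hco hq.out.pos hm
    rcases (Nat.dvd_prime hq.out).1 ⟨_, hr.symm⟩ with h | h
    · have hr1 : r = 1 := PNat.eq h
      subst hr1
      have e1 : jm K (1 * d) hm = incl K (dvd_mul_left M q) (jm K d hd) := by
        apply Subtype.ext
        rw [coe_incl]
        change Jc 1 (1 * d) = Jc 1 d
        rw [one_mul]
      rw [e1]
      exact g1 _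
    · have hr1 : r = pn q := PNat.eq (by rw [h, coe_pn])
      subst hr1
      rw [← qe_jm hd hm]
      exact g2 _
  have h3 := AlgHom.congr_fun key x'
  have h4 : x = IntermediateField.inclusion hF x' := Subtype.ext e
  rw [h4]
  exact h3

end WAbs

section W

variable {K : Type*} [Field K] [CharZero K] [Algebra ℚ K] [IsAlgClosed K] (ι : K →+* ℂ)
  (D : WData q M (⊤ : Subgroup (ZMod M)ˣ)) (hM3 : 3 ≤ M) (hco : q.Coprime M)

theorem wE_eq_w (x : FG (Gq q M (⊤ : Subgroup (ZMod M)ˣ)) K) (x' : FF K (q * M))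
    (e : (x : LaurentSeries K) = x') :
    (wE ι D hM3 x : LaurentSeries K) = (SemiSt.w K hco x' : LaurentSeries K) :=
  W_eq_w hco (FF_le_top hM3) (incl_le K) (FF_le_topM hM3) (wE ι D hM3)
    (wE_incl_top ι D hM3) (wE_wE ι D hM3) x x' e

end W

end Top

end

end Fermat.Agent.TyC
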