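import Fermat.Agent.TL.Main
import Fermat.Agent.PRem.Cls
import Fermat.Agent.Cov.GoodH
import Fermat.Agent.Car.Main

/-!
# Kummer classes of functions with divisible divisor
-/

set_option autoImplicit false
set_option linter.style.haveILetI false
set_option linter.unusedSectionVars false

open scoped MatrixGroups

noncomputable section

namespace Fermat.Agent.TyC

open ModularCurve AlgebraicCurve Polynomial IntermediateField Fermat.Agent.ModPoly Fermat.Agent.Red
  Fermat.Agent.SemiSt Fermat.Agent.Kum Fermat.Agent.KumF Fermat.Agent.Nod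
  Fermat.Agent.HeckeProd Fermat.Agent.HeckeHom Fermat.Agent.Cosets Fermat.Agent.RR Fermat.Agent.PRem

theorem exists_pic_of_eq {K L : Type*} [Field K] [Field L] [Algebra K L]
    {E E' : IntermediateField K L} (h : E = E') {m : ℕ}
    (H : ∀ x : Pic0 K E, ∃ y, m • y = x) (x : Pic0 K E') : ∃ y, m • y = x := by
  subst h; exact H x

variable {K : Type} [Field K] [Algebra ℚ K] [IsAlgClosed K] [CharZero K] (ι : K →+* ℂ)
  {N p : ℕ} [NeZero N]

include ι in
theorem divisible_FK {m : ℕ} (hm : m ≠ 0) (x : Pic0 K (FK K N)) : ∃ y, m • y = x := by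
  haveI := KumG.lvlG_GH N ⊤ (Subgroup.mem_top (-1 : (ZMod N)ˣ))
  haveI := GamH.ratG_GH N ⊤ (Subgroup.mem_top (-1 : (ZMod N)ˣ))
  letI : Algebra K ℂ := ι.toAlgebra
  haveI : Nonempty (K →+* ℂ) := ⟨ι⟩
  have h1 : KumG.FG (KumG.GH N ⊤) K = FK K N :=
    (Cov.FG_eq_FF (H := (⊤ : Subgroup (ZMod N)ˣ)) ι (Subgroup.mem_top _)
      (Subgroup.index_top)).trans FK_eq.symm
  exact exists_pic_of_eq h1 (fun x => TL.divisible (Γ := KumG.GH N ⊤) K hm x) x

variable [NeZero p]

/-- **a function whose divisor is divisible by `p` has a Kummer class** -/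
theorem exists_hasCls {x : FF K N} (hx : x ≠ 0)
    (hd : ∀ v : Place K (FF K N), (p : ℤ) ∣ v.ord x) : ∃ ξ : XL N p, HasCls ι p x ξ := by
  have hp0 : p ≠ 0 := NeZero.ne p
  have hkd : KD p (toK x) := kd_toK.2 ⟨hx, hd⟩
  obtain ⟨D, hD⟩ := Car.exists_div_divisor (Ω := K) (f := (toK x : FK K N)) hp0 hkd.2
  have hD' : p • D = divisor K (toK x : FK K N) := by
    ext v
    rw [Finsupp.smul_apply, nsmul_eq_mul, hD, divisor_apply]
  have hpz : (p : ℤ) ≠ 0 := by exact_mod_cast hp0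
  have hdeg : Divisor.degree D = 0 := by
    have h1 := congrArg Divisor.degree hD'
    rw [map_nsmul, degree_divisor, nsmul_eq_mul] at h1
    exact (mul_eq_zero.1 h1).resolve_left hpz
  obtain ⟨y, hy⟩ := divisible_FK ι (N := N) (m := Kum.tb N) (NeZero.ne _)
    (Pic0.mk ⟨D, (Divisor.mem_degZero).2 hdeg⟩)
  obtain ⟨D', rfl⟩ := Pic0.mk_surjective y
  rw [Spec.nsmul_mk, ← sub_eq_zero] at hy
  have hy' : ((Kum.tb N • (D' : Divisor K (FK K N))) - D).IsPrincipal :=
    Spec.pic0_mk_eq_zero.1 hy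
  obtain ⟨h, hh, hhD⟩ := Spec.isPrincipal_iff.1 hy'
  have hgood : Good p ((toK x : FK K N) * h ^ p) := by
    refine ⟨mul_ne_zero hkd.1 (pow_ne_zero _ hh), fun v => ?_⟩
    have h2 := DFunLike.congr_fun hhD v
    rw [Finsupp.sub_apply, Finsupp.smul_apply, divisor_apply, nsmul_eq_mul] at h2
    rw [v.ord_mul hkd.1 (pow_ne_zero _ hh), Curve.ord_pow, ← hD, ← h2]
    refine ⟨(D' : Divisor K (FK K N)) v, ?_⟩
    push_cast
    ring
  obtain ⟨Φ, hΦ⟩ := hgood.exists_mk ι
  refine ⟨mkX Φ, ?_⟩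
  have h3 : HasCls ι p (ofK ((toK x : FK K N) * h ^ p)) (mkX Φ) := by
    refine ⟨Φ, rfl, ?_⟩
    rw [coe_ofK]
    exact hΦ
  have hh' : ofK h ≠ 0 := by
    intro h0
    apply hh
    rw [← PRem.coe_eq_zero_iff, ← coe_ofK, h0]
    rfl
  have e : x = ofK ((toK x : FK K N) * h ^ p) * ((ofK h)⁻¹) ^ p := by
    apply Subtype.ext
    have hL : (h : LaurentSeries K) ≠ 0 := fun h0 => hh (Subtype.ext h0)
    rw [MulMemClass.coe_mul, SubmonoidClass.coe_pow, IntermediateField.coe_inv, coe_ofK, coe_ofK,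
      MulMemClass.coe_mul, SubmonoidClass.coe_pow, coe_toK, mul_assoc, ← mul_pow,
      mul_inv_cancel₀ hL, one_pow, mul_one]
  rw [e]
  exact h3.mul_pow (inv_ne_zero hh')

end Fermat.Agent.TyC
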