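import Mathlib

/-!
# Counting in finite commutative groups
-/

set_option autoImplicit false
set_option linter.style.haveILetI false

namespace Fermat.Agent.TyC

/-- the order of a group killed by `p ^ n` -/
theorem card_le_pow {Y : Type*} [AddCommGroup Y] [Finite Y] (p : ℕ) (n : ℕ)
    (h : ∀ y : Y, p ^ n • y = 0) : Nat.card Y ≤ Nat.card {y : Y // p • y = 0} ^ n := by
  have key : ∀ k : ℕ, Nat.card {y : Y // p ^ k • y = 0} ≤ Nat.card {y : Y // p • y = 0} ^ k := by
    intro k
    induction k with
    | zero =>
      rw [pow_zero]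
      have : Subsingleton {y : Y // p ^ 0 • y = 0} := ⟨by
        rintro ⟨a, ha⟩ ⟨b, hb⟩
        apply Subtype.ext
        rw [pow_zero, one_smul] at ha hb
        change a = b
        rw [ha, hb]⟩
      exact Finite.card_le_one_iff_subsingleton.2 this
    | succ k ih =>
      let f : (nsmulAddMonoidHom (p ^ (k + 1)) : Y →+ Y).ker →+
          (nsmulAddMonoidHom p : Y →+ Y).ker :=
        { toFun := fun y => ⟨p ^ k • y.1, by
            have := y.2
            rw [AddMonoidHom.mem_ker] at this ⊢
            change p ^ (k + 1) • (y.1 : Y) = 0 at this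
            change p • (p ^ k • (y.1 : Y)) = 0
            rwa [← mul_nsmul, ← pow_succ]⟩
          map_zero' := Subtype.ext (nsmul_zero _)
          map_add' := fun x y => Subtype.ext (nsmul_add _ _ _) }
      have h1 : Nat.card f.ker ≤ Nat.card {y : Y // p ^ k • y = 0} := by
        refine Nat.card_le_card_of_injective (fun y => ⟨y.1.1, ?_⟩) ?_
        · have := y.2
          rw [AddMonoidHom.mem_ker] at this
          exact congrArg Subtype.val this
        · intro a b hab
          apply Subtype.ext
          apply Subtype.ext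
          exact congrArg (fun z => z.1) hab
      have h2 : Nat.card f.range ≤ Nat.card {y : Y // p • y = 0} := by
        refine Nat.card_le_card_of_injective (fun y => ⟨y.1.1, ?_⟩) ?_
        · exact y.1.2
        · intro a b hab
          apply Subtype.ext
          apply Subtype.ext
          exact congrArg (fun z => z.1) hab
      have h3 : Nat.card (nsmulAddMonoidHom (p ^ (k + 1)) : Y →+ Y).ker =
          Nat.card f.range * Nat.card f.ker := by
        rw [AddSubgroup.card_eq_card_quotient_mul_card_addSubgroup f.ker,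
          Nat.card_congr (QuotientAddGroup.quotientKerEquivRange f).toEquiv]
      have h4 : Nat.card {y : Y // p ^ (k + 1) • y = 0} =
          Nat.card (nsmulAddMonoidHom (p ^ (k + 1)) : Y →+ Y).ker := rfl
      have h5 : Nat.card f.range * Nat.card f.ker ≤
          Nat.card {y : Y // p • y = 0} * Nat.card {y : Y // p • y = 0} ^ k :=
        Nat.mul_le_mul h2 (h1.trans ih)
      rw [h4, h3]
      refine h5.trans (le_of_eq ?_)
      exact (pow_succ' _ _).symm
  have h5 := key n
  have h6 : Nat.card {y : Y // p ^ n • y = 0} = Nat.card Y :=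
    Nat.card_congr (Equiv.subtypeUnivEquiv h)
  rwa [h6] at h5

/-- a lower bound for the number of cyclic factors -/
theorem pow_le_card {Y : Type*} [AddCommGroup Y] [Finite Y] {p : ℕ} (hp : p.Prime) {n s C : ℕ}
    (h : ∀ y : Y, p ^ n • y = 0) (hC : C < p ^ n) (hc : p ^ (n * s) ≤ C * Nat.card Y) :
    p ^ s ≤ Nat.card {y : Y // p • y = 0} := by
  haveI := Fact.mk hp
  have h1 : ∃ t, Nat.card {y : Y // p • y = 0} = p ^ t := by
    have h2 : Nat.card {y : Y // p • y = 0} =
      Nat.card (nsmulAddMonoidHom p : Y →+ Y).ker := rfl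
    rw [h2]
    have h3 : IsPGroup p (Multiplicative (nsmulAddMonoidHom p : Y →+ Y).ker) := by
      intro y
      refine ⟨1, ?_⟩
      rw [pow_one]
      have := (Multiplicative.toAdd y).2
      rw [AddMonoidHom.mem_ker] at this
      exact Subtype.ext this
    obtain ⟨t, ht⟩ := IsPGroup.iff_card.1 h3
    exact ⟨t, ht⟩
  obtain ⟨t, ht⟩ := h1
  rw [ht]
  have h4 := card_le_pow p n h
  rw [ht, ← pow_mul] at h4
  apply Nat.pow_le_pow_right hp.pos
  by_contra hlt
  push Not at hlt
  have h5 : p ^ (n * s) ≤ C * p ^ (t * n) := hc.trans (Nat.mul_le_mul_left _ h4)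
  have h6 : p ^ n * p ^ (t * n) ≤ p ^ (n * s) := by
    rw [← pow_add]
    apply Nat.pow_le_pow_right hp.pos
    nlinarith
  have h7 : 0 < p ^ (t * n) := pow_pos hp.pos _
  have h8 := Nat.le_of_mul_le_mul_right (h6.trans h5) h7
  omega

end Fermat.Agent.TyC
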