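import Fermat.Agent.ImW.Curve

/-!
# A torsion point fixed by inertia at a semistable prime
-/

set_option autoImplicit false
set_option linter.unusedSectionVars false
set_option linter.style.haveILetI false

noncomputable section

namespace Fermat.Agent.TyC

open Matrix Module Fermat.Agent.GalRep Fermat.Agent.PRem Fermat.Agent.EC Fermat.Agent.CL

section mat

variable {F : Type*} [Field F]

theorem nil2 {N : Matrix (Fin 2) (Fin 2) F} (h : N * N = 0) :
    N 1 1 = - N 0 0 ∧ N 0 0 ^ 2 = -(N 0 1 * N 1 0) := by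
  have e00 := congrFun (congrFun h 0) 0
  have e01 := congrFun (congrFun h 0) 1
  have e10 := congrFun (congrFun h 1) 0
  have e11 := congrFun (congrFun h 1) 1
  simp only [Matrix.mul_apply, Fin.sum_univ_two, Matrix.zero_apply] at e00 e01 e10 e11
  have ht : N 1 1 + N 0 0 = 0 := by
    by_contra hne
    have h1 : N 0 1 = 0 := by
      have : N 0 1 * (N 1 1 + N 0 0) = 0 := by linear_combination e01
      exact (mul_eq_zero.1 this).resolve_right hne
    rw [h1] at e00 e11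
    have h2 : N 0 0 = 0 := by
      have : N 0 0 * N 0 0 = 0 := by linear_combination e00
      exact mul_self_eq_zero.1 this
    have h3 : N 1 1 = 0 := by
      have : N 1 1 * N 1 1 = 0 := by linear_combination e11
      exact mul_self_eq_zero.1 this
    exact hne (by rw [h2, h3, add_zero])
  refine ⟨by linear_combination ht, by linear_combination e00⟩

/-- two nilpotent matrices such that `(1 + X) (1 + Y) - 1` is nilpotent -/
theorem nil_mul {X Y : Matrix (Fin 2) (Fin 2) F} (hX : X * X = 0) (hY : Y * Y = 0)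
    (hXY : (X + Y + X * Y) * (X + Y + X * Y) = 0) : Y * X = 0 := by
  obtain ⟨hx, hx'⟩ := nil2 hX
  obtain ⟨hy, hy'⟩ := nil2 hY
  obtain ⟨hz, -⟩ := nil2 hXY
  simp only [Matrix.add_apply, Matrix.mul_apply, Fin.sum_univ_two] at hz
  rw [hx, hy] at hz
  have t : 2 * (X 0 0 * Y 0 0) + X 0 1 * Y 1 0 + X 1 0 * Y 0 1 = 0 := by linear_combination hz
  ext i j
  rw [Matrix.mul_apply, Fin.sum_univ_two, Matrix.zero_apply]
  fin_cases i <;> fin_cases j <;> dsimp only [Fin.zero_eta, Fin.mk_one] <;> apply pow_eq_zero_iff (two_ne_zero) |>.1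
  · linear_combination Y 0 0 ^ 2 * hx' - X 0 1 * X 1 0 * hy' + Y 0 1 * X 1 0 * t
  · rw [hx]
    linear_combination X 0 1 ^ 2 * hy' + Y 0 1 ^ 2 * hx' - Y 0 1 * X 0 1 * t
  · rw [hy]
    linear_combination Y 1 0 ^ 2 * hx' + X 1 0 ^ 2 * hy' - Y 1 0 * X 1 0 * t
  · rw [hy, hx]
    linear_combination Y 0 0 ^ 2 * hx' - X 0 1 * X 1 0 * hy' + Y 1 0 * X 0 1 * t

/-- a common fixed vector for a group of unipotent matrices -/
theorem exists_fixed_vec {G : Type*} [Group G] (I : Subgroup G)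
    (ρ : G →* Matrix (Fin 2) (Fin 2) F) (h : ∀ σ ∈ I, (ρ σ - 1) * (ρ σ - 1) = 0) :
    ∃ v : Fin 2 → F, v ≠ 0 ∧ ∀ σ ∈ I, (ρ σ) *ᵥ v = v := by
  by_cases h1 : ∀ σ ∈ I, ρ σ = 1
  · refine ⟨fun _ => 1, fun h0 => one_ne_zero (congrFun h0 0), fun σ hσ => ?_⟩
    rw [h1 σ hσ, Matrix.one_mulVec]
  · push Not at h1
    obtain ⟨τ, hτ, hne⟩ := h1
    have hX : ρ τ - 1 ≠ 0 := sub_ne_zero.2 hne
    obtain ⟨w, hw⟩ : ∃ w : Fin 2 → F, (ρ τ - 1) *ᵥ w ≠ 0 := by
      by_contra hcon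
      push Not at hcon
      apply hX
      ext i j
      have h2 := congrFun (hcon (Pi.single j 1)) i
      rw [Matrix.mulVec_single_one] at h2
      exact h2
    refine ⟨(ρ τ - 1) *ᵥ w, hw, fun σ hσ => ?_⟩
    have h3 : (ρ σ - 1) * (ρ τ - 1) = 0 := by
      refine nil_mul (h τ hτ) (h σ hσ) ?_
      have e : ρ τ - 1 + (ρ σ - 1) + (ρ τ - 1) * (ρ σ - 1) = ρ (τ * σ) - 1 := by
        rw [map_mul]
        noncomm_ring
      rw [e]
      exact h _ (mul_mem hτ hσ)
    have h4 : (ρ σ - 1) *ᵥ ((ρ τ - 1) *ᵥ w) = 0 := by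
      rw [Matrix.mulVec_mulVec, h3, Matrix.zero_mulVec]
    rw [Matrix.sub_mulVec, Matrix.one_mulVec, sub_eq_zero] at h4
    exact h4

end mat

/-- **inertia at a semistable prime fixes a torsion point** -/
theorem exists_fixed_TE {W : WeierstrassCurve ℤ} {p : ℕ} [hp : Fact p.Prime]
    {ρ : ((AlgebraicClosure ℚ) ≃ₐ[ℚ] (AlgebraicClosure ℚ)) →* Matrix (Fin 2) (Fin 2) (ZMod p)}
    (h : ImW.ResW W p ρ) {q : ℕ} (hq : q.Prime) (hss : (q : ℤ) ∣ W.Δ → ¬ (q : ℤ) ∣ W.c₄)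
    (hqp : q ≠ p) {A : ValuationSubring (AlgebraicClosure ℚ)} (hA : A.LiesOverPrime q) :
    ∃ Q : TE (EQ W) p, Q ≠ 0 ∧ ∀ σ ∈ A.inertiaSubgroupIn ℚ, σ • Q = Q := by
  obtain ⟨b, hb⟩ := h.basis
  obtain ⟨v, hv, hfix⟩ := exists_fixed_vec (A.inertiaSubgroupIn ℚ) ρ (h.unip q hq hss hqp A hA)
  refine ⟨b.equivFun.symm v, fun h0 => hv ?_, fun σ hσ => ?_⟩
  · rw [← b.equivFun.apply_symm_apply v, h0, map_zero]
  · rw [← repE_apply]
    apply b.equivFun.injective
    rw [LinearEquiv.apply_symm_apply]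
    have h1 := hfix σ hσ
    rw [hb σ] at h1
    have h2 : LinearMap.toMatrixAlgEquiv b (repE (EQ W) p σ) *ᵥ (b.repr (b.equivFun.symm v)) =
        b.repr (repE (EQ W) p σ (b.equivFun.symm v)) := LinearMap.toMatrix_mulVec_repr b b _ _
    have h3 : (b.repr (b.equivFun.symm v) : Fin 2 → ZMod p) = v :=
      b.equivFun.apply_symm_apply v
    rw [h3, h1] at h2
    exact h2.symm

end Fermat.Agent.TyC
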