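import Fermat.Agent.E2.Main2
import Fermat.Agent.E2K.Main

/-!
# Realisation of reductions and gluing data at the level `Γ₀(q) ∩ Γ_H(M)`
-/

set_option autoImplicit false
set_option linter.unusedSectionVars false
set_option linter.style.haveILetI false

open scoped MatrixGroups
open Fermat.Agent.KumG Fermat.Agent.Cov ModularCurve Fermat.Agent.ModPoly Fermat.Agent.GamH
  Fermat.Agent.RedMod Fermat.Agent.Red AlgebraicCurve Fermat.Agent.RR
  Fermat.Agent.SSH Fermat.Agent.SemiSt Fermat.Agent.Nod Fermat.Agent.Curve Fermat.Agent.E2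

namespace Fermat.Agent.TyC

noncomputable section

attribute [local instance 10000] fastAlg

section

variable {A₀ K₀ A K k : Type*} [CommRing A₀] [IsDomain A₀] [IsDiscreteValuationRing A₀] [Field K₀]
  [CharZero K₀] [Algebra ℚ K₀]
  [Algebra A₀ K₀] [IsFractionRing A₀ K₀] [CommRing A] [IsDomain A] [ValuationRing A]
  [Field K] [IsAlgClosed K] [CharZero K] [Algebra ℚ K] [Algebra A K] [IsFractionRing A K]
  [Field k] [IsAlgClosed k] [Algebra A k] [Algebra A₀ k] [Algebra K₀ K]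
  {q M : ℕ} [hq : Fact q.Prime] [NeZero M]
  {H : Subgroup (ZMod M)ˣ} [hH : Fact ((-1 : (ZMod M)ˣ) ∈ H)] [CharP k q] [PerfectRing k q]
  [Algebra.IsAlgebraic K₀ K]

/-- sections of a divisor over the finite chart -/
structure Sec0 (s : Set2 A₀ K₀ A K k q M H) (D : Divisor K (FG (Gq q M H) K))
    (x : FG (Gq q M H) K₀) : Prop where
  w0 : x ∈ (s.X.CC 0).W
  w1 : x ∈ (s.X.CC 1).W
  ge : ∀ v : Place K (FG (Gq q M H) K), 0 ≤ v.ord s.toSetting.S.jq →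
    Ge v (D v) (emb K₀ K (Gq q M H) x)

/-- `Q` is (the first coordinate of) an intersection point -/
def IsNd (s : Set2 A₀ K₀ A K k q M H) (Q : Place k (FH k M H)) : Prop :=
  s.S₀.fd.g • s.S₀.fd.g • Q = Q ∧ 0 ≤ Q.ord s.S₀.jE ∧
    ∀ x : FG (Gq q M H) K₀, Sec0 s 0 x → val Q ((s.X.CC 0).r x) = val (s.S₀.fd.g • Q) ((s.X.CC 1).r x)

/-- **realisation** -/
structure Realize (s : Set2 A₀ K₀ A K k q M H) (p : ℕ) : Prop where
  sp : ∀ α : Fin 2 → FH k M H, (∀ j, α j ≠ 0) →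
    (∀ j (Q : Place k (FH k M H)), (p : ℤ) ∣ Q.ord (α j)) →
    ∃ g : FG (Gq q M H) K₀, g ≠ 0 ∧
      (∀ v : Place K (FG (Gq q M H) K), (p : ℤ) ∣ v.ord (emb K₀ K (Gq q M H) g)) ∧
      (∀ j, (s.X.CC j).v g = 0) ∧
      ∃ β : Fin 2 → FH k M H, ∀ j, β j ≠ 0 ∧ (s.X.CC j).r g = α j * β j ^ p
  tor : ∀ ρ : Place k (FH k M H) → k, (∀ Q, ρ Q ^ p = 1) →
    ∃ (g : FG (Gq q M H) K₀) (D : Divisor K (FG (Gq q M H) K)) (γ : Fin 2 → FH k M H), g ≠ 0 ∧
      (∀ v, (p : ℤ) * D v = v.ord (emb K₀ K (Gq q M H) g)) ∧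
      (∀ j, (s.X.CC j).v g = 0) ∧ (∀ j, γ j ≠ 0 ∧ (s.X.CC j).r g = γ j ^ p) ∧
      ∀ Q : Place k (FH k M H), IsNd s Q → ∀ x : FG (Gq q M H) K₀, Sec0 s D x →
        val Q ((s.X.CC 0).r x / γ 0) = ρ Q * val (s.S₀.fd.g • Q) ((s.X.CC 1).r x / γ 1)

end

end

end Fermat.Agent.TyC
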