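import Fermat.Agent.LevelRaise.Raise
import Fermat.Agent.Kum.HeckeAct
import Fermat.Agent.ALCoh.Kill
import Fermat.Agent.S22
import Fermat.Prelude.Def_FLTPrelim_ModularRep

/-!
# Hecke operators killing a level at which a curve is not residually modular
-/

set_option autoImplicit false
set_option linter.style.haveILetI false

noncomputable section

namespace Fermat.Agent.TyC

open Fermat.Agent.ALCoh Fermat.Agent.LevelRaise CuspForm

/-- **Hecke operators killing a level at which a curve is not residually modular.** -/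
theorem exists_evT_zero_of_not (W : WeierstrassCurve ℤ) {p : ℕ} [hp : Fact p.Prime] {M : ℕ}
    [NeZero M] {S : Set ℕ} (hMS : ∀ q : ℕ, q.Prime → q ∣ M → q ∈ S)
    (hS : ∀ l : ℕ, l.Prime → W.IsGoodPrimeFor l → ¬ l ∣ M → l ≠ p → l ∉ S)
    (hno : ¬ W.IsResiduallyModularOfLevel p M) :
    ∃ P : MvPolynomial (sg S) ℤ, evT (N := M) hMS P = 0 ∧
      MvPolynomial.eval₂ (Int.castRingHom (ZMod p))
        (fun l : sg S => ((W.apOfModel l : ℤ) : ZMod p)) P ≠ 0 := by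
  by_contra hcon
  push Not at hcon
  apply hno
  let ev : MvPolynomial (sg S) ℤ →+* ZMod p := MvPolynomial.eval₂Hom (Int.castRingHom (ZMod p))
    (fun l : sg S => ((W.apOfModel l : ℤ) : ZMod p))
  have hev : ∀ P, evT (N := M) hMS P = 0 → ev P = 0 := hcon
  have hevs : Function.Surjective ev := fun x => by
    obtain ⟨n, rfl⟩ := ZMod.intCast_surjective x
    exact ⟨(n : MvPolynomial (sg S) ℤ), by rw [map_intCast]⟩
  have hsurj := evT_surjective (N := M) hMS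
  haveI hmaxk : (RingHom.ker ev).IsMaximal := RingHom.ker_isMaximal_of_surjective ev hevs
  let 𝔪 : Ideal (heckeAlgebra M 2 S) := (RingHom.ker ev).map (evT (N := M) hMS)
  have h𝔪 : 𝔪.IsMaximal := by
    rcases Ideal.map_eq_top_or_isMaximal_of_surjective _ hsurj hmaxk with h | h
    · exfalso
      have h1 : (1 : heckeAlgebra M 2 S) ∈ (RingHom.ker ev).map (evT (N := M) hMS) := by
        rw [h]
        trivial
      obtain ⟨x, hx, hx1⟩ := (Ideal.mem_map_iff_of_surjective _ hsurj).1 h1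
      have h2 := hev (x - 1) (by rw [map_sub, hx1, map_one, sub_self])
      rw [map_sub, (RingHom.mem_ker).1 hx, map_one, zero_sub, neg_eq_zero] at h2
      exact one_ne_zero h2
    · exact h
  have hmem𝔪 : ∀ P, ev P = 0 → evT (N := M) hMS P ∈ 𝔪 := fun P hP =>
    Ideal.mem_map_of_mem _ ((RingHom.mem_ker).2 hP)
  let ι := inclH (N := M) (Set.empty_subset S)
  letI : Algebra (heckeAlgebra M 2 S) (heckeAlgebra M 2 ∅) := ι.toAlgebra
  haveI : IsScalarTower ℤ (heckeAlgebra M 2 S) (heckeAlgebra M 2 ∅) :=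
    IsScalarTower.of_algebraMap_eq' (Subsingleton.elim _ _)
  haveI : Module.Finite ℤ (heckeAlgebra M 2 ∅) := Fermat.Agent.S22.result M 2 ∅
  haveI : Algebra.IsIntegral ℤ (heckeAlgebra M 2 ∅) := Algebra.IsIntegral.of_finite ℤ _
  haveI : Algebra.IsIntegral (heckeAlgebra M 2 S) (heckeAlgebra M 2 ∅) :=
    Algebra.IsIntegral.tower_top ℤ
  have hinj : Function.Injective ι := fun a b hab => by
    apply Subtype.ext
    have := congrArg Subtype.val hab
    rwa [coe_inclH, coe_inclH] at this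
  haveI := h𝔪
  obtain ⟨𝔑, h𝔑, h𝔑c⟩ := Ideal.exists_ideal_over_maximal_of_isIntegral
    (S := heckeAlgebra M 2 ∅) 𝔪 (by
      have h1 : RingHom.ker (algebraMap (heckeAlgebra M 2 S) (heckeAlgebra M 2 ∅)) = ⊥ :=
        (RingHom.injective_iff_ker_eq_bot _).1 hinj
      rw [h1]
      exact bot_le)
  haveI := h𝔑
  have htf : ∀ (n : ℤ) (t : heckeAlgebra M 2 ∅), n ≠ 0 →
      (n : heckeAlgebra M 2 ∅) * t ∈ (⊥ : Ideal (heckeAlgebra M 2 ∅)) →
      t ∈ (⊥ : Ideal (heckeAlgebra M 2 ∅)) := by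
    intro n t hn ht
    rw [Ideal.mem_bot] at ht ⊢
    rw [← zsmul_eq_mul] at ht
    apply Subtype.ext
    refine LinearMap.ext fun x => ?_
    have h1 := congrArg (fun u : heckeAlgebra M 2 ∅ =>
      (u : Module.End ℂ (CuspForm (CongruenceSubgroup.Gamma0 M) 2)) x) ht
    have h2 : ((n • t : heckeAlgebra M 2 ∅) :
        Module.End ℂ (CuspForm (CongruenceSubgroup.Gamma0 M) 2)) x =
        (n : ℂ) • ((t : Module.End ℂ (CuspForm (CongruenceSubgroup.Gamma0 M) 2)) x) := by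
      rw [Int.cast_smul_eq_zsmul]
      rfl
    have h3 : (n : ℂ) • ((t : Module.End ℂ (CuspForm (CongruenceSubgroup.Gamma0 M) 2)) x) = 0 :=
      h2.symm.trans h1
    exact (smul_eq_zero.1 h3).resolve_left (Int.cast_ne_zero.2 hn)
  obtain ⟨χ, 𝔐, -, h𝔐, hcomap⟩ := LevelRaise.exists_char_of_quot
    (⊥ : Ideal (heckeAlgebra M 2 ∅)) htf 𝔑 bot_le
  obtain ⟨g, hg, hgT, -⟩ := LevelRaise.exists_form_of_char (N := M)
    ((algebraMap (integralClosure ℤ ℂ) ℂ).comp χ)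
  have hmem : ∀ t, t ∈ 𝔑 → χ t ∈ 𝔐 := fun t ht => by
    rw [← hcomap] at ht
    exact ht
  have hmemι : ∀ t, t ∈ 𝔪 → ι t ∈ 𝔑 := fun t ht => by
    rw [← h𝔑c] at ht
    exact ht
  refine ⟨g, 𝔐, hg, h𝔐, ?_, fun ℓ hℓ hg' hℓM hℓp => ?_⟩
  · have h1 := hmem _ (hmemι _ (hmem𝔪 ((p : ℕ) : MvPolynomial (sg S) ℤ) (by
      rw [map_natCast, CharP.cast_eq_zero])))
    rw [map_natCast, map_natCast, map_natCast] at h1
    exact h1
  · have hℓS : ℓ ∉ S := hS ℓ hℓ hg' hℓM hℓp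
    refine ⟨χ (heckeAlgebra.T hℓ hℓM (Set.notMem_empty _)), (hgT ℓ hℓ hℓM).symm, ?_⟩
    have h1 := hmem _ (hmemι _ (hmem𝔪 (MvPolynomial.X (⟨ℓ, hℓ, hℓS⟩ : sg S) -
      ((W.apOfModel ℓ : ℤ) : MvPolynomial (sg S) ℤ)) (by
      rw [map_sub, map_intCast]
      change MvPolynomial.eval₂ _ _ (MvPolynomial.X (⟨ℓ, hℓ, hℓS⟩ : sg S)) - _ = 0
      rw [MvPolynomial.eval₂_X, sub_self])))
    rw [map_sub, evT_X, map_intCast, map_sub, map_intCast, map_sub, map_intCast] at h1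
    exact h1

/-- the same, on the group `XL` -/
theorem exists_kill_of_not (W : WeierstrassCurve ℤ) {p : ℕ} [hp : Fact p.Prime] {M : ℕ}
    [NeZero M] {S : Set ℕ} (hMS : ∀ q : ℕ, q.Prime → q ∣ M → q ∈ S)
    (hS : ∀ l : ℕ, l.Prime → W.IsGoodPrimeFor l → ¬ l ∣ M → l ≠ p → l ∉ S)
    (hno : ¬ W.IsResiduallyModularOfLevel p M) :
    ∃ P : MvPolynomial (sg S) ℤ, (∀ ξ : Kum.XL M p, Kum.actX M p S (evT hMS P) ξ = 0) ∧
      MvPolynomial.eval₂ (Int.castRingHom (ZMod p))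
        (fun l : sg S => ((W.apOfModel l : ℤ) : ZMod p)) P ≠ 0 := by
  obtain ⟨P, h1, h2⟩ := exists_evT_zero_of_not W hMS hS hno
  exact ⟨P, fun ξ => by rw [h1, map_zero]; rfl, h2⟩

end Fermat.Agent.TyC
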