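import Fermat.Agent.TW.EigTrace

/-!
# Equivariant maps between Kummer groups of different levels
-/

set_option autoImplicit false
set_option linter.style.haveILetI false
set_option linter.unusedSectionVars false

noncomputable section

namespace Fermat.Agent.TyC

open ModularCurve ModularCurve.Period Fermat.Agent.Kum Fermat.Agent.HeckeHom Fermat.Agent.ALCoh
  Fermat.Agent.TW

variable {N N' N'' Q : ℕ} [NeZero N] [NeZero N'] [NeZero N'']

/-- restriction -/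
def resL (hd : N' ∣ N) : LZ N' →+ LZ N where
  toFun φ := ⟨(famRes hd).op ℤ φ.1, isParabolicHom_op (famRes hd) φ.2⟩
  map_zero' := Subtype.ext (map_zero ((famRes hd).op ℤ))
  map_add' φ ψ := Subtype.ext (map_add ((famRes hd).op ℤ) φ.1 ψ.1)

/-- transfer -/
def trL (hd : N' ∣ N) : LZ N →+ LZ N' where
  toFun φ := ⟨tr hd ℤ φ.1,
    isParabolicHom_op (famTr (exists_isReps hd).choose_spec.choose_spec) φ.2⟩
  map_zero' := Subtype.ext (map_zero (tr hd ℤ))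
  map_add' φ ψ := Subtype.ext (map_add (tr hd ℤ) φ.1 ψ.1)

/-- Atkin-Lehner involution -/
def wL (hQ : Q ∣ N) (hco : Q.Coprime (N / Q)) : LZ N →+ LZ N where
  toFun φ := ⟨wop hQ hco ℤ φ.1,
    isParabolicHom_op (famW hQ (ne_zero_of_dvd hQ) (wMat_mem hQ hco)) φ.2⟩
  map_zero' := Subtype.ext (map_zero (wop hQ hco ℤ))
  map_add' φ ψ := Subtype.ext (map_add (wop hQ hco ℤ) φ.1 ψ.1)

theorem redI_resL (hd : N' ∣ N) {p : ℕ} (φ : LZ N') :
    redI p (resL hd φ) = (famRes hd).op (ZMod p) (redI p φ) :=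
  ((famRes hd).comp_op (Int.castAddHom (ZMod p)) φ.1)

theorem redI_trL (hd : N' ∣ N) {p : ℕ} (φ : LZ N) :
    redI p (trL hd φ) = tr hd (ZMod p) (redI p φ) :=
  comp_tr hd (Int.castAddHom (ZMod p)) φ.1

theorem redI_wL (hQ : Q ∣ N) (hco : Q.Coprime (N / Q)) {p : ℕ} (φ : LZ N) :
    redI p (wL hQ hco φ) = wop hQ hco (ZMod p) (redI p φ) :=
  comp_wop hQ hco (Int.castAddHom (ZMod p)) φ.1

/-- Hecke equivariance -/
def EqT (F : LZ N →+ LZ N') : Prop :=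
  ∀ (l : ℕ) (hl : l.Prime) (hlN : ¬ l ∣ N) (hlM : ¬ l ∣ N') (φ : LZ N),
      F ⟨opT N hl hlN ℤ φ.1, isParabolicHom_opT hl hlN φ.2⟩ =
        ⟨opT N' hl hlM ℤ (F φ).1, isParabolicHom_opT hl hlM (F φ).2⟩

theorem eqT_resL (hd : N' ∣ N) : EqT (resL hd) := fun l hl hlN hlM φ => Subtype.ext (by
  change (famRes hd).op ℤ (opT N' hl hlN ℤ φ.1) = opT N hl hlM ℤ ((famRes hd).op ℤ φ.1)
  rw [opT_eq hl hlN, opT_eq hl hlM, res_T_comm hl hd hlN hlM])

theorem eqT_trL (hd : N' ∣ N) : EqT (trL hd) := fun l hl hlN hlM φ => Subtype.ext (by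
  change tr hd ℤ (opT N hl hlN ℤ φ.1) = opT N' hl hlM ℤ (tr hd ℤ φ.1)
  rw [opT_eq hl hlN, opT_eq hl hlM, tr_T_comm' hd hl hlN hlM])

theorem eqT_wL (hQ : Q ∣ N) (hco : Q.Coprime (N / Q)) : EqT (wL hQ hco) :=
  fun l hl hlN hlM φ => Subtype.ext (by
    change wop hQ hco ℤ (opT N hl hlN ℤ φ.1) = opT N hl hlM ℤ (wop hQ hco ℤ φ.1)
    rw [opT_eq hl hlN, wop_T_comm hQ hco hl hlN])

/-- the induced map on Kummer groups -/
def mapX (p : ℕ) [NeZero p] (F : LZ N →+ LZ N') : XL N p →+ XL N' p :=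
  QuotientAddGroup.map (mL N p) (mL N' p) F (by
    rintro _ ⟨φ, rfl⟩
    exact ⟨F φ, (map_nsmul F p φ).symm⟩)

theorem mapX_mkX (p : ℕ) [NeZero p] (F : LZ N →+ LZ N') (φ : LZ N) :
    mapX p F (mkX φ) = mkX (F φ) := rfl

theorem mapX_comp (p : ℕ) [NeZero p] (F : LZ N →+ LZ N') (G : LZ N' →+ LZ N'') (ξ : XL N p) :
    mapX p (G.comp F) ξ = mapX p G (mapX p F ξ) := by
  obtain ⟨φ, rfl⟩ := mkX_surjective ξ
  rfl

theorem mapX_tX {p : ℕ} [NeZero p] {S : Set ℕ} (hNS : ∀ q : ℕ, q.Prime → q ∣ N → q ∈ S)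
    (hMS : ∀ q : ℕ, q.Prime → q ∣ N' → q ∈ S) {F : LZ N →+ LZ N'} (hF : EqT F)
    (P : MvPolynomial (sg S) ℤ) (ξ : XL N p) :
    mapX p F (tX N p hNS P ξ) = tX N' p hMS P (mapX p F ξ) := by
  obtain ⟨φ, rfl⟩ := mkX_surjective ξ
  change mapX p F (actX N p S (evT hNS P) (mkX φ)) = actX N' p S (evT hMS P) (mapX p F (mkX φ))
  rw [actX_mkX, mapX_mkX, mapX_mkX, actX_mkX, equivariant hNS hMS F hF P φ]

/-- evaluation at eigenvectors -/
theorem tX_eig {p : ℕ} [Fact p.Prime] [NeZero p] {S : Set ℕ} (hNS : ∀ q : ℕ, q.Prime → q ∣ N → q ∈ S)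
    {a : ℕ → ℤ} {ξ : XL N p} (h : ∀ l : sg S, tX N p hNS (MvPolynomial.X l) ξ = a l • ξ)
    (P : MvPolynomial (sg S) ℤ) :
    tX N p hNS P ξ = (MvPolynomial.eval (fun l : sg S => a l) P) • ξ := by
  induction P using MvPolynomial.induction_on with
  | C c => rw [tX_C, MvPolynomial.eval_C]
  | add P P' ih ih' => rw [tX_add, ih, ih', map_add, add_smul]
  | mul_X P l ih =>
    rw [tX_mul, h, map_zsmul, ih, map_mul, MvPolynomial.eval_X, smul_smul, mul_comm]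

end Fermat.Agent.TyC
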