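import Fermat.Agent.TyC.RZ

/-!
# Functions of level `q ^ 2 M` with divisible divisor come from level `q M`
-/

set_option autoImplicit false
set_option linter.style.haveILetI false
set_option linter.unusedSectionVars false

noncomputable section

namespace Fermat.Agent.TyC

open ModularCurve Polynomial IntermediateField Fermat.Agent.ModPoly Fermat.Agent.Cusp AlgebraicCurve
open Fermat.Agent.SemiSt Fermat.Agent.CarE Fermat.Agent.HeckeProd Fermat.Agent.Curve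
open Fermat.Agent.RedMod Fermat.Agent.Car Fermat.Agent.RR Fermat.Agent.Red Fermat.Agent.PRem
open Fermat.Agent.Nod Fermat.Agent.CarM Fermat.Agent.MW

section Abs

variable {A K F k R κ Ω L : Type*} [CommRing A] [IsDomain A] [IsDiscreteValuationRing A]
    [Field K] [Algebra A K] [IsFractionRing A K] [Field F] [Algebra K F] [Algebra A F]
    [IsScalarTower A K F] [Field k] [Algebra A k] [CommRing R] [Algebra k R] [Algebra A R]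
    [IsScalarTower A k R] [Field κ] [Algebra k κ] [Field Ω] [Field L] [Algebra Ω L] [Algebra K Ω]
    {ι J : Type*} [Fintype ι] [Fintype J] {M : CModel A K F k R κ Ω L ι J}

theorem RtD.congr {m : ℕ} {f : F} {E : Divisor Ω L} {γ γ' : J → κ} (h : RtD M m f E γ)
    (e : γ = γ') : RtD M m f E γ' := e ▸ h

theorem Sc.congr {m : ℕ} {f : F} {E : Divisor Ω L} {γ : J → κ} {Q : Place k κ} {ρ ρ' : J → k}
    (h : Sc M m f E γ Q ρ) (e : ρ = ρ') : Sc M m f E γ Q ρ' := e ▸ h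

variable [IsAlgClosed Ω] [CharZero Ω] [FunField Ω L] [Algebra.IsAlgebraic K Ω] [Nonempty J]
  [IsAlgClosed k] [FunField k κ] [CharZero K]

theorem sc_of {m : ℕ} (hm : m ≠ 0) {f : F} {E : Divisor Ω L} {γ : J → κ} (h : RtD M m f E γ)
    {Q : Place k κ} (hQ : ∀ l, 0 ≤ Q.ord (M.tb l)) {s : F} (hs : s ∈ M.M0 E) {ρ : J → k} {c : k}
    (hc : c ≠ 0) (hρ : ∀ l, ρ l ≠ 0) (hval : ∀ l, val Q ((M.comp l).r s / γ l) = ρ l * c) :
    Sc M m f E γ Q ρ :=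
  ⟨s, hs, fun l => by
    rw [← (M.ge_div h.ne h.v hm h.hE hs (hQ l) (h.hγ l)).2, hval]
    exact pow_ne_zero _ (mul_ne_zero (hρ l) hc), c, hc, hval⟩

end Abs

/-- roots modulo `p`-th powers -/
theorem exists_frq_root {k : Type*} [Field k] [IsAlgClosed k] {q M : ℕ} [Fact q.Prime] [CharP k q]
    {p : ℕ} (hp : (p : k) ≠ 0) (hp1 : 1 < p) {c : FF k M} (hc : c ≠ 0)
    [FunField k (FF k M)] (hd : ∀ Q : Place k (FF k M), (p : ℤ) ∣ Q.ord c) :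
    ∃ b d : FF k M, b ≠ 0 ∧ d ≠ 0 ∧ (∀ Q : Place k (FF k M), (p : ℤ) ∣ Q.ord b) ∧
      Frq k q M b = c * d ^ p := by
  have hq := (Fact.out : q.Prime)
  have hco : q.Coprime p := by
    rw [hq.coprime_iff_not_dvd]
    intro h
    exact hp ((CharP.cast_eq_zero_iff k q p).2 h)
  obtain ⟨u, -, hu⟩ := Nat.exists_mul_mod_eq_one_of_coprime hco hp1
  have hu' : ∃ t, q * u = 1 + p * t := ⟨q * u / p, by
    have := Nat.div_add_mod (q * u) p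
    rw [hu] at this
    omega⟩
  obtain ⟨t, ht⟩ := hu'
  let b₀ : FF k M := (fd k q M).g • c
  have hb₀ : Frq k q M b₀ = c ^ q := (fd k q M).hσ c
  have hb₀' : b₀ ≠ 0 := by
    intro h
    rw [h, map_zero] at hb₀
    exact pow_ne_zero q hc hb₀.symm
  refine ⟨b₀ ^ u, c ^ t, pow_ne_zero _ hb₀', pow_ne_zero _ hc, fun Q => ?_, ?_⟩
  · rw [ord_pow]
    apply Dvd.dvd.mul_left
    have h1 : Q.ord b₀ = ((fd k q M).g⁻¹ • Q).ord c := by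
      have := SemilinearAut.ord_smul (fd k q M).g ((fd k q M).g⁻¹ • Q) c
      rwa [smul_inv_smul] at this
    rw [h1]
    exact hd _
  · rw [map_pow, hb₀, ← pow_mul, ht, pow_add, pow_one, mul_comm p t, pow_mul]

variable {R0 K0 A Ω k : Type*} [CommRing R0] [IsDomain R0] [IsDiscreteValuationRing R0]
  [Field K0] [Algebra R0 K0]
  [IsFractionRing R0 K0] [CommRing A] [IsDomain A] [ValuationRing A] [Field Ω]
  [IsAlgClosed Ω] [CharZero Ω] [CharZero K0]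
  [Algebra A Ω] [IsFractionRing A Ω] [Field k] [Algebra A k] [Algebra K0 Ω] [Algebra R0 A]
  [Algebra R0 k] {q M : ℕ} [hq : Fact q.Prime] [NeZero M] [CharP k q]
  (B : Base q R0 K0 A Ω k) (hco : q.Coprime M)
  {z : Aˣ} (hz : z ^ q = 1 ∧ z ≠ 1) (hM : (M : k) ≠ 0)
  [IsAlgClosed k]

set_option synthInstance.maxHeartbeats 400000

variable [FunField k (FF k M)] [FunField Ω (FF Ω M)] [FunField Ω (FF Ω (q * M))]
  [FunField Ω (FF Ω (q ^ 2 * M))]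

variable {B hco hz}

section Sc

variable {p : ℕ} (hp : (p : k) ≠ 0) (HR : RZ K0 A Ω k q M hco p)

theorem oi_M0 {D : Divisor Ω (FF Ω (q * M))} {E : Divisor Ω (FF Ω (q ^ 2 * M))}
    (hE : ∀ u, E u = re (Oi Ω q M) u * D (rs (Oi Ω q M) u)) {x : FF K0 (q * M)} {a b : FF k M}
    (h : SecD A Ω k hco D x a b) : oi K0 q M x ∈ (cm B hco hz hM).M0 E := by
  refine ⟨((cm B hco hz hM).mem_W _).2 (oi_W hM h.rd), fun v hv => ?_⟩
  rw [emb_cm_t] at hv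
  rw [cm_emb, emb_oi, hE]
  exact ge_of_rs (h.ge _ (ord_Oi hv))

theorem ow_M0 {D : Divisor Ω (FF Ω (q * M))} {E : Divisor Ω (FF Ω (q ^ 2 * M))}
    (hE : ∀ u, E u = re (Ow Ω hco) u * D (rs (Ow Ω hco) u)) {x : FF K0 (q * M)} {a b : FF k M}
    (h : SecD A Ω k hco D x a b) : ow B hco x ∈ (cm B hco hz hM).M0 E := by
  refine ⟨((cm B hco hz hM).mem_W _).2 (ow_W hM h.rd), fun v hv => ?_⟩
  rw [emb_cm_t] at hv
  rw [cm_emb, emb_ow, hE]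
  exact ge_of_rs (h.ge _ (ord_Ow B hco hz hM hv))

include hp HR in
/-- **gluing data on the model of level `q ^ 2 M`** -/
theorem exists_tor (ρ : Fin 3 → Place k (FF k M) → k) (hρ : ∀ l Q, ρ l Q ^ p = 1)
    (hρ1 : ∀ Q, ρ 1 Q = 1) :
    ∃ (g : FF K0 (q ^ 2 * M)) (E' : Divisor Ω (FF Ω (q ^ 2 * M))) (γ' : Fin 3 → FF k M),
      (∃ g₁ g₂ : FF K0 (q * M), g₁ ≠ 0 ∧ g₂ ≠ 0 ∧
        (∀ v : Place Ω (FF Ω (q * M)), (p : ℤ) ∣ v.ord (CarE.emb K0 Ω (q * M) g₁)) ∧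
        (∀ v : Place Ω (FF Ω (q * M)), (p : ℤ) ∣ v.ord (CarE.emb K0 Ω (q * M) g₂)) ∧
        g = oi K0 q M g₁ * ow B hco g₂) ∧
      RtD (cm B hco hz hM) p g E' γ' ∧
        ∀ Q, CP (cm B hco hz hM) Q → Sc (cm B hco hz hM) p g E' γ' Q (fun l => ρ l Q) := by
  haveI := B.alg
  have hp0 := p_ne p hp
  have hρne : ∀ l Q, ρ l Q ≠ 0 := fun l Q h => by
    have := hρ l Q
    rw [h, zero_pow hp0] at this
    exact zero_ne_one this
  have hinv : ∀ l Q, (ρ l Q)⁻¹ ^ p = 1 := fun l Q => by rw [inv_pow, hρ, inv_one]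
  obtain ⟨g₁, D₁, α₁, β₁, hg₁, hD₁, hα₁, hβ₁, hr₁, ht₁⟩ := HR.tor (fun Q => (ρ 2 Q)⁻¹) (hinv 2)
  obtain ⟨g₂, D₂, α₂, β₂, hg₂, hD₂, hα₂, hβ₂, hr₂, ht₂⟩ := HR.tor (fun Q => (ρ 0 Q)⁻¹) (hinv 0)
  obtain ⟨E₁, hE₁, R₁⟩ := rtd_oi (B := B) (hco := hco) (hz := hz) hM hp hg₁ hD₁ hα₁ hβ₁ hr₁
  obtain ⟨E₂, hE₂, R₂⟩ := rtd_ow (B := B) (hco := hco) (hz := hz) hM hp hg₂ hD₂ hα₂ hβ₂ hr₂
  refine ⟨_, _, _, ⟨g₁, g₂, hg₁, hg₂, fun v => ⟨_, (hD₁ v).symm⟩, fun v => ⟨_, (hD₂ v).symm⟩, rfl⟩,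
    R₁.mul R₂, fun Q hQ => ?_⟩
  have hnd := nd_of_CP B hco hz hM hQ
  obtain ⟨x₁, a₁, b₁, hs₁, hv₁⟩ := HR.gen g₁ D₁ α₁ β₁ hg₁ hD₁ hα₁ hβ₁ hr₁ Q hnd
  obtain ⟨x₂, a₂, b₂, hs₂, hv₂⟩ := HR.gen g₂ D₂ α₂ β₂ hg₂ hD₂ hα₂ hβ₂ hr₂ Q hnd
  have k₁ := ht₁ Q hnd x₁ a₁ b₁ hs₁
  have k₂ := ht₂ Q hnd x₂ a₂ b₂ hs₂
  have S₁ : Sc (cm B hco hz hM) p (oi K0 q M g₁) E₁ ![α₁, α₁, Frq k q M β₁] Q
      ![1, 1, ρ 2 Q] := by
    refine sc_of hp0 R₁ hQ.1 (oi_M0 hM hE₁ hs₁) hv₁ (fun l => ?_) (fun l => ?_)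
    · match l with
      | 0 => exact one_ne_zero
      | 1 => exact one_ne_zero
      | 2 => exact hρne 2 Q
    · match l with
      | 0 =>
        rw [r_oi0 hM hs₁.rd]
        exact (one_mul _).symm
      | 1 =>
        rw [r_oi1 hM hs₁.rd]
        exact (one_mul _).symm
      | 2 =>
        rw [r_oi2 hM hs₁.rd]
        change val Q (Frq k q M b₁ / Frq k q M β₁) = ρ 2 Q * val Q (a₁ / α₁)
        rw [k₁, map_div₀, mul_inv_cancel_left₀ (hρne 2 Q)]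
  have S₂ : Sc (cm B hco hz hM) p (ow B hco g₂) E₂ ![Frq k q M β₂, α₂, α₂] Q
      ![ρ 0 Q, 1, 1] := by
    refine sc_of hp0 R₂ hQ.1 (ow_M0 hM hE₂ hs₂) hv₂ (fun l => ?_) (fun l => ?_)
    · match l with
      | 0 => exact hρne 0 Q
      | 1 => exact one_ne_zero
      | 2 => exact one_ne_zero
    · match l with
      | 0 =>
        rw [r_ow0 hM hs₂.rd]
        change val Q (Frq k q M b₂ / Frq k q M β₂) = ρ 0 Q * val Q (a₂ / α₂)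
        rw [k₂, map_div₀, mul_inv_cancel_left₀ (hρne 0 Q)]
      | 1 =>
        rw [r_ow1 hM hs₂.rd]
        exact (one_mul _).symm
      | 2 =>
        rw [r_ow2 hM hs₂.rd]
        exact (one_mul _).symm
  refine (Sc.mul hp0 R₁ R₂ hQ.1 S₁ S₂).congr ?_
  funext l
  match l with
  | 0 => exact one_mul _
  | 1 => exact (one_mul _).trans (hρ1 Q).symm
  | 2 => exact mul_one _

end Sc

include hM in
/-- **functions of level `q ^ 2 M` with divisible divisor and without vertical part come from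
level `q M`** -/
theorem old_of_v (ι : Ω →+* ℂ) (HL : Lifts M K0 A Ω k) {p : ℕ} (hp : (p : k) ≠ 0) (hp1 : 1 < p)
    (HR : RZ K0 A Ω k q M hco p)
    {f : FF K0 (q ^ 2 * M)} (hf : f ≠ 0) (hv : ∀ j, ((cm B hco hz hM).comp j).v f = 0)
    (hd : ∀ v : Place Ω (FF Ω (q ^ 2 * M)), (p : ℤ) ∣ v.ord (CarE.emb K0 Ω (q ^ 2 * M) f)) :
    ∃ (g₁ g₂ : FF K0 (q * M)), g₁ ≠ 0 ∧ g₂ ≠ 0 ∧
      (∀ v : Place Ω (FF Ω (q * M)), (p : ℤ) ∣ v.ord (CarE.emb K0 Ω (q * M) g₁)) ∧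
      (∀ v : Place Ω (FF Ω (q * M)), (p : ℤ) ∣ v.ord (CarE.emb K0 Ω (q * M) g₂)) ∧
      ∃ x : FF Ω (q ^ 2 * M), x ^ p = CarE.emb K0 Ω (q ^ 2 * M) (f * (oi K0 q M g₁ *
        ow B hco g₂)) := by
  haveI := B.alg
  have hp0 := p_ne p hp
  have H := good B hco hz hM HL
  have H' := good_inv B hco hz hM HL (fun j x hx => surj_inf B hco hz hM ι j x (by
    intro Q hQ
    have h3 : 0 ≤ Q.ord ((cm B hco hz hM).inv.tb j) := by
      rw [CModel.tb_inv, Q.ord_inv, cm_tb, ord_pow, neg_nonneg]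
      exact mul_nonpos_of_nonneg_of_nonpos (Int.natCast_nonneg q) hQ
    rcases hx Q h3 with h4 | h4
    · rw [h4, Q.ord_zero]
    · exact h4))
  have hN := node B hco hz hM HL
  have hN' := node_inv B hco hz hM HL
  set c : Fin 3 → FF k M := fun j => ((cm B hco hz hM).comp j).r f with hc
  have hc0 : ∀ j, c j ≠ 0 := fun j => (Comp.r_ne_zero_iff hf).2 (hv j)
  have hcd : ∀ j (Q : Place k (FF k M)), (p : ℤ) ∣ Q.ord (c j) := fun j Q =>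
    CModel.dvd_ord (cm B hco hz hM) H H' hf hv hp0 hd j Q
  have hdiv : ∀ {x y : FF k M}, x ≠ 0 → y ≠ 0 → (∀ Q : Place k (FF k M), (p : ℤ) ∣ Q.ord x) →
      (∀ Q : Place k (FF k M), (p : ℤ) ∣ Q.ord y) →
      ∀ Q : Place k (FF k M), (p : ℤ) ∣ Q.ord (x * y⁻¹) := by
    intro x y hx hy h1 h2 Q
    rw [Q.ord_mul hx (inv_ne_zero hy), Q.ord_inv]
    exact dvd_add (h1 Q) ((h2 Q).neg_right)
  -- the reductions to be realised
  obtain ⟨b₁, d₁, hb₁, hd₁, hb₁d, e₁⟩ := exists_frq_root (q := q) hp hp1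
    (mul_ne_zero (hc0 1) (inv_ne_zero (hc0 2))) (hdiv (hc0 1) (hc0 2) (hcd 1) (hcd 2))
  obtain ⟨b₂, d₂, hb₂, hd₂, hb₂d, e₂⟩ := exists_frq_root (q := q) hp hp1
    (inv_ne_zero (hc0 0)) (fun Q => by rw [Q.ord_inv]; exact (hcd 0 Q).neg_right)
  obtain ⟨g₁, α₁, β₁, hg₁, hG₁, hα₁, hβ₁, r₁⟩ := HR.sp 1 b₁ one_ne_zero hb₁
    (fun Q => by rw [Place.ord_one]; exact dvd_zero _) hb₁d
  obtain ⟨g₂, α₂, β₂, hg₂, hG₂, hα₂, hβ₂, r₂⟩ := HR.sp (c 1)⁻¹ b₂ (inv_ne_zero (hc0 1)) hb₂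
    (fun Q => by rw [Q.ord_inv]; exact (hcd 1 Q).neg_right) hb₂d
  set G := oi K0 q M g₁ * ow B hco g₂ with hG
  have hO₁ : oi K0 q M g₁ ≠ 0 := (_root_.map_ne_zero _).2 hg₁
  have hO₂ : ow B hco g₂ ≠ 0 := (_root_.map_ne_zero _).2 hg₂
  have hG0 : G ≠ 0 := mul_ne_zero hO₁ hO₂
  have rG : ∀ j, ((cm B hco hz hM).comp j).r G =
      ((cm B hco hz hM).comp j).r (oi K0 q M g₁) * ((cm B hco hz hM).comp j).r (ow B hco g₂) :=
    fun j => Comp.r_mul (oi_W hM r₁ j) (ow_W hM r₂ j)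
  set γ : Fin 3 → FF k M := ![α₁ * (d₂ * Frq k q M β₂), α₁ * α₂,
    d₁ * Frq k q M β₁ * α₂] with hγ
  have hfW : ∀ j, f ∈ ((cm B hco hz hM).comp j).W := fun j => Comp.mem_of_v (hv j).ge
  have hGW : ∀ j, G ∈ ((cm B hco hz hM).comp j).W := fun j => mul_mem (oi_W hM r₁ j) (ow_W hM r₂ j)
  have hγ' : ∀ j, γ j ^ p = ((cm B hco hz hM).comp j).r (f * G) := by
    intro j
    rw [Comp.r_mul (hfW j) (hGW j), rG]
    match j with
    | 0 =>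
      rw [r_oi0 hM r₁, r_ow0 hM r₂, map_mul, map_pow, e₂]
      change (α₁ * (d₂ * Frq k q M β₂)) ^ p = c 0 * _
      have := hc0 0
      field_simp
      ring
    | 1 =>
      rw [r_oi1 hM r₁, r_ow1 hM r₂]
      change (α₁ * α₂) ^ p = c 1 * _
      have := hc0 1
      field_simp
      ring
    | 2 =>
      rw [r_oi2 hM r₁, r_ow2 hM r₂, map_mul, map_pow, e₁]
      change (d₁ * Frq k q M β₁ * α₂) ^ p = c 2 * _
      have h1 := hc0 1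
      have h2 := hc0 2
      field_simp
      ring
  have hγ0 : ∀ j, γ j ≠ 0 := by
    have f1 : Frq k q M β₁ ≠ 0 := (_root_.map_ne_zero _).2 hβ₁
    have f2 : Frq k q M β₂ ≠ 0 := (_root_.map_ne_zero _).2 hβ₂
    intro j
    match j with
    | 0 => exact mul_ne_zero hα₁ (mul_ne_zero hd₂ f2)
    | 1 => exact mul_ne_zero hα₁ hα₂
    | 2 => exact mul_ne_zero (mul_ne_zero hd₁ f1) hα₂
  have hfG : f * G ≠ 0 := mul_ne_zero hf hG0
  have hdG : ∀ v : Place Ω (FF Ω (q ^ 2 * M)), (p : ℤ) ∣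
      v.ord (CarE.emb K0 Ω (q ^ 2 * M) (f * G)) := by
    intro v
    have n1 : CarE.emb K0 Ω (q ^ 2 * M) f ≠ 0 := (_root_.map_ne_zero _).2 hf
    have n2 : CarE.emb K0 Ω (q ^ 2 * M) (oi K0 q M g₁) ≠ 0 := (_root_.map_ne_zero _).2 hO₁
    have n3 : CarE.emb K0 Ω (q ^ 2 * M) (ow B hco g₂) ≠ 0 := (_root_.map_ne_zero _).2 hO₂
    rw [hG, map_mul, map_mul, v.ord_mul n1 (mul_ne_zero n2 n3), v.ord_mul n2 n3]
    refine dvd_add (hd v) (dvd_add ?_ ?_)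
    · rw [emb_oi, ord_map]
      exact (hG₁ _).mul_left _
    · rw [emb_ow, ord_map]
      exact (hG₂ _).mul_left _
  obtain ⟨E, hE⟩ := exists_div_divisor hp0 hdG
  have hRt : RtD (cm B hco hz hM) p (f * G) E γ := ⟨hfG, fun j => by
    rw [← Comp.r_ne_zero_iff hfG, ← hγ']
    exact pow_ne_zero _ (hγ0 j), fun v => by rw [cm_emb]; exact hE v, hγ'⟩
  obtain ⟨g, ⟨g₃, g₄, hg₃, hg₄, hG₃, hG₄, hg⟩, x, hx⟩ := rigG (M := cm B hco hz hM) (q := q)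
    H H' hN hN' (fun j Q i Q' hQ hQ' hs => by
      rw [cm_tb, ord_tb_neg] at hQ hQ'
      exact cusp_sep B hco hz hM hQ hQ' hs) hp hRt
    (fun g => ∃ g₁ g₂ : FF K0 (q * M), g₁ ≠ 0 ∧ g₂ ≠ 0 ∧
        (∀ v : Place Ω (FF Ω (q * M)), (p : ℤ) ∣ v.ord (CarE.emb K0 Ω (q * M) g₁)) ∧
        (∀ v : Place Ω (FF Ω (q * M)), (p : ℤ) ∣ v.ord (CarE.emb K0 Ω (q * M) g₂)) ∧
        g = oi K0 q M g₁ * ow B hco g₂) 1
    (fun ρ hρ hρ1 => exists_tor hM hp HR ρ hρ hρ1)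
  have hmul : ∀ {g g' : FF K0 (q * M)}, g ≠ 0 → g' ≠ 0 →
      (∀ v : Place Ω (FF Ω (q * M)), (p : ℤ) ∣ v.ord (CarE.emb K0 Ω (q * M) g)) →
      (∀ v : Place Ω (FF Ω (q * M)), (p : ℤ) ∣ v.ord (CarE.emb K0 Ω (q * M) g')) →
      ∀ v : Place Ω (FF Ω (q * M)), (p : ℤ) ∣ v.ord (CarE.emb K0 Ω (q * M) (g * g')) := by
    intro g g' h1 h2 h3 h4 v
    rw [map_mul, v.ord_mul ((_root_.map_ne_zero _).2 h1) ((_root_.map_ne_zero _).2 h2)]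
    exact dvd_add (h3 v) (h4 v)
  refine ⟨g₁ * g₃, g₂ * g₄, mul_ne_zero hg₁ hg₃, mul_ne_zero hg₂ hg₄, hmul hg₁ hg₃ hG₁ hG₃,
    hmul hg₂ hg₄ hG₂ hG₄, x, ?_⟩
  rw [hx, cm_emb]
  congr 1
  rw [hg, hG, map_mul (oi K0 q M), map_mul (ow B hco)]
  ring

end Fermat.Agent.TyC
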