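import Fermat.Agent.TyC.TTq
import Fermat.Agent.TyC.Old
import Fermat.Agent.PRem.TTr

/-!
# Vertical orders and Hecke operators at level `q ^ 2 M`
-/

set_option autoImplicit false
set_option linter.style.haveILetI false
set_option linter.unusedSectionVars false

noncomputable section

namespace Fermat.Agent.TyC

open ModularCurve Polynomial IntermediateField Fermat.Agent.ModPoly Fermat.Agent.Cusp AlgebraicCurve
open Fermat.Agent.SemiSt Fermat.Agent.CarE Fermat.Agent.HeckeProd Fermat.Agent.Curve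
open Fermat.Agent.RedMod Fermat.Agent.Car Fermat.Agent.RR Fermat.Agent.Red Fermat.Agent.PRem
open Fermat.Agent.Nod Fermat.Agent.CarM Fermat.Agent.MW

theorem TTC {R : Type*} [CommRing R] [IsDomain R] {ℓ : ℕ} [NeZero ℓ] {ζ : Rˣ}
    (h : IsPrimitiveRoot ζ ℓ) (a : R) :
    HeckeProd.TT h (HahnSeries.C a) = (HahnSeries.C a : LaurentSeries R) ^ (ℓ + 1) := by
  have e : ∀ c : Rˣ, twist c (HahnSeries.C a : LaurentSeries R) = HahnSeries.C a := fun c => by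
    rw [HahnSeries.C_apply, twist_single, zpow_zero, Units.val_one, one_mul]
  have e2 : HeckeProd.PP ℓ ζ (HahnSeries.C a) = HahnSeries.C (a ^ ℓ) := by
    simp only [HeckeProd.PP, e, Finset.prod_const, Finset.card_univ, ZMod.card, map_pow]
  have e3 : HeckeProd.contract ℓ (HahnSeries.C (a ^ ℓ) : LaurentSeries R) = HahnSeries.C (a ^ ℓ) := by
    have := HeckeProd.contract_qExpand ℓ (HahnSeries.C (a ^ ℓ) : LaurentSeries R)
    rwa [qExpand_C] at this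
  rw [HeckeProd.TT_apply, HeckeProd.NN, e2, e3, qExpand_C, ← map_mul, ← map_pow, pow_succ, mul_comm]

section Scale

variable {A Ω k : Type*} [CommRing A] [IsDomain A] [ValuationRing A]
  [Field Ω] [Algebra A Ω] [IsFractionRing A Ω] [Field k] [Algebra A k] {ℓ : ℕ} [NeZero ℓ]

theorem TT_isU {ζ : Aˣ} (Z : Zt A Ω k ℓ ζ) {w : LaurentSeries Ω} (hw : IsU A Ω k w) :
    IsU A Ω k (HeckeProd.TT Z.hK w) := by
  obtain ⟨h1, h2⟩ := hw
  exact (rd_TT Z ⟨h1, rfl⟩).isU ((_root_.map_ne_zero _).2 h2)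

theorem TT_scale {ζ : Aˣ} (Z : Zt A Ω k ℓ ζ) {x w : LaurentSeries Ω} {c : Ω} (hc : c ≠ 0) {n : ℤ}
    (hw : IsU A Ω k w) (hx : x = HahnSeries.C c ^ n * w) :
    IsU A Ω k (HeckeProd.TT Z.hK x * (x ^ (ℓ + 1))⁻¹) := by
  have hC : (HahnSeries.C c : LaurentSeries Ω) ≠ 0 := by
    rw [Ne, map_eq_zero_iff _ HahnSeries.C_injective]; exact hc
  have e : HeckeProd.TT Z.hK x * (x ^ (ℓ + 1))⁻¹ =
      HeckeProd.TT Z.hK w * (w ^ (ℓ + 1))⁻¹ := by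
    rw [hx, map_mul, map_zpow₀, TTC, mul_pow, mul_inv]
    have h1 : ((HahnSeries.C c : LaurentSeries Ω) ^ (ℓ + 1)) ^ n *
        ((((HahnSeries.C c : LaurentSeries Ω) ^ n) ^ (ℓ + 1)))⁻¹ = 1 := by
      rw [← zpow_natCast, ← zpow_natCast, ← zpow_mul, ← zpow_mul, mul_comm n,
        mul_inv_cancel₀ (zpow_ne_zero _ hC)]
    calc _ = (((HahnSeries.C c : LaurentSeries Ω) ^ (ℓ + 1)) ^ n *
        ((((HahnSeries.C c : LaurentSeries Ω) ^ n) ^ (ℓ + 1)))⁻¹) *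
          (HeckeProd.TT Z.hK w * (w ^ (ℓ + 1))⁻¹) := by ring
      _ = _ := by rw [h1, one_mul]
  rw [e]
  exact (TT_isU Z hw).mul (IsU.pow hw _).inv

end Scale

section Abs

variable {A K F k R κ Ω L : Type*} [CommRing A] [IsDomain A] [IsDiscreteValuationRing A]
    [Field K] [Algebra A K] [IsFractionRing A K] [Field F] [Algebra K F] [Algebra A F]
    [IsScalarTower A K F] [Field k] [Algebra A k] [CommRing R] [Algebra k R] [Algebra A R]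
    [IsScalarTower A k R] [Field κ] [Algebra k κ] [Field Ω] [Field L] [Algebra Ω L] [Algebra K Ω]
    {ι : Type*} [Fintype ι]

variable [IsAlgClosed Ω] [CharZero Ω] [FunField Ω L] [Algebra.IsAlgebraic K Ω]
  [IsAlgClosed k] [FunField k κ] [CharZero K]

variable {M : CModel A K F k R κ Ω L ι (Fin 3)} {q : ℕ} (N : Norm3 M q)

include N in
/-- removing the vertical orders -/
theorem exists_adj {p : ℕ} (hp0 : p ≠ 0) {f : F} (hf : f ≠ 0)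
    (hv0 : (M.comp 0).v f = 0) (hv2 : (M.comp 2).v f = 0) {c₁ : K} {z₁ : F}
    (h₁ : N.NN f = algebraMap K F c₁ * z₁ ^ p) :
    ∃ g : F, g ≠ 0 ∧ ∀ j, (M.comp j).v (f * (g ^ p)⁻¹) = 0 := by
  have hNf := N.NN_ne f hf
  have hc1 : c₁ ≠ 0 := by
    rintro rfl
    rw [map_zero, zero_mul] at h₁
    exact hNf h₁
  have hz1 : z₁ ≠ 0 := by
    rintro rfl
    rw [zero_pow hp0, mul_zero] at h₁
    exact hNf h₁
  have hcF : ∀ c : K, c ≠ 0 → algebraMap K F c ≠ 0 := fun c hc => by rwa [Ne, map_eq_zero]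
  obtain ⟨n1, u1, hu1⟩ := M.exists_unit_pow hc1
  have A1 := N.v_NN0 f hf
  have A2 := N.v_NN2 f hf
  rw [h₁, Comp.v_mul _ (hcF _ hc1) (pow_ne_zero _ hz1), M.v_K hu1, N.e0, Comp.v_pow] at A1
  rw [h₁, Comp.v_mul _ (hcF _ hc1) (pow_ne_zero _ hz1), M.v_K hu1, N.e2, Comp.v_pow] at A2
  rw [hv0] at A1
  rw [hv2] at A2
  set α := (M.comp 0).v z₁ - (M.comp 2).v z₁ with hα
  have R1 : (M.comp 1).v f = p * α := by
    rw [hα]; push_cast at A1 A2; linarith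
  obtain ⟨g, hg0, hg⟩ := M.exists_v ![0, α, 0]
  have hgp : g ^ p ≠ 0 := pow_ne_zero _ hg0
  refine ⟨g, hg0, fun j => ?_⟩
  rw [Comp.v_mul _ hf (inv_ne_zero hgp), Comp.v_inv, Comp.v_pow, hg]
  match j with
  | 0 => rw [hv0]; change (0 : ℤ) + -(p * 0) = 0; ring
  | 1 => rw [R1]; change (p : ℤ) * α + -(p * α) = 0; ring
  | 2 => rw [hv2]; change (0 : ℤ) + -(p * 0) = 0; ring

end Abs

variable {R0 K0 A Ω k : Type*} [CommRing R0] [IsDomain R0] [IsDiscreteValuationRing R0]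
  [Field K0] [Algebra R0 K0]
  [IsFractionRing R0 K0] [CommRing A] [IsDomain A] [ValuationRing A] [Field Ω]
  [IsAlgClosed Ω] [CharZero Ω] [CharZero K0]
  [Algebra A Ω] [IsFractionRing A Ω] [Field k] [Algebra A k] [Algebra K0 Ω] [Algebra R0 A]
  [Algebra R0 k] {q M : ℕ} [hq : Fact q.Prime] [NeZero M] [CharP k q]
  (B : Base q R0 K0 A Ω k) (hco : q.Coprime M)
  {z : Aˣ} (hz : z ^ q = 1 ∧ z ≠ 1) (hM : (M : k) ≠ 0)
  [IsAlgClosed k]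

set_option synthInstance.maxHeartbeats 400000

section Hecke

variable {ℓ : ℕ} [hl : Fact ℓ.Prime]

variable (Ω ℓ) in
/-- `T_ℓ x / x ^ (ℓ + 1)` -/
def Gf {N : ℕ} [NeZero N] (x : FF Ω N) : FF Ω N := TTf Ω ℓ N x * (x ^ (ℓ + 1))⁻¹

theorem coe_Gf {N : ℕ} [NeZero N] (hℓ : ℓ.Coprime N) {ζ : Ωˣ} (hζ : IsPrimitiveRoot ζ ℓ)
    (x : FF Ω N) : (Gf Ω ℓ x : LaurentSeries Ω) =
      HeckeProd.TT hζ (x : LaurentSeries Ω) * ((x : LaurentSeries Ω) ^ (ℓ + 1))⁻¹ := by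
  rw [Gf, MulMemClass.coe_mul, coe_TTf hℓ hζ, IntermediateField.coe_inv, SubmonoidClass.coe_pow]

theorem gal_Gf {N : ℕ} [NeZero N] (hℓ : ℓ.Coprime N) (σ : Ω ≃ₐ[K0] Ω) {x : FF Ω N}
    (hx : CarE.gal N σ x = x) : CarE.gal N σ (Gf Ω ℓ x) = Gf Ω ℓ x := by
  have h1 : act N σ.toRingEquiv x = x := hx
  change act N σ.toRingEquiv (Gf Ω ℓ x) = Gf Ω ℓ x
  rw [Gf, map_mul, map_inv₀, map_pow, h1, ← TTf_act hℓ, h1]

include B in
theorem exists_G0 {N : ℕ} [NeZero N] (hℓ : ℓ.Coprime N) (f : FF K0 N) :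
    ∃ g : FF K0 N, CarE.emb K0 Ω N g = Gf Ω ℓ (CarE.emb K0 Ω N f) := by
  haveI := B.alg
  exact CarE.exists_of_fixed (N := N) B.fixed fun σ => gal_Gf hℓ σ (gal_emb σ f)

theorem Gf_w2 (hℓ : ℓ.Coprime (q ^ 2 * M)) (x : FF Ω (q ^ 2 * M)) :
    CarE.w2 Ω hco (Gf Ω ℓ x) = Gf Ω ℓ (CarE.w2 Ω hco x) := by
  have h1 : TTf Ω ℓ (q ^ 2 * M) (CarE.w2 Ω hco x) = CarE.w2 Ω hco (TTf Ω ℓ (q ^ 2 * M) x) :=
    TTf_w (hco.pow_left 2) hℓ x
  rw [Gf, Gf, map_mul, map_inv₀, map_pow, h1]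

/-- vertical orders along the outer components -/
theorem v_Gf (hℓ : ℓ.Coprime (q ^ 2 * M)) (hℓk : (ℓ : k) ≠ 0) {f g : FF K0 (q ^ 2 * M)} (hf : f ≠ 0)
    (hg : CarE.emb K0 Ω (q ^ 2 * M) g = Gf Ω ℓ (CarE.emb K0 Ω (q ^ 2 * M) f)) :
    ((cm B hco hz hM).comp 0).v g = 0 ∧ ((cm B hco hz hM).comp 2).v g = 0 := by
  obtain ⟨ζ, Z⟩ := exists_Zt (A := A) (K := Ω) (k := k) hl.out hℓk
  constructor
  · refine (E3 B hco hz 0).v_eq_zero (FF k M) (res_mem B hco hz hM 0) ?_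
    obtain ⟨m, w, hw, e⟩ := (E3 B hco hz 0).scale f hf
    have e' : (CarE.emb K0 Ω (q ^ 2 * M) f : LaurentSeries Ω) =
      HahnSeries.C (algebraMap A Ω (E3 B hco hz (M := M) 0).ϖA) ^ m * w := e
    change IsU A Ω k (CarE.emb K0 Ω (q ^ 2 * M) g : LaurentSeries Ω)
    rw [hg, coe_Gf hℓ Z.hK]
    refine TT_scale Z ?_ hw e'
    rw [Ne, map_eq_zero_iff _ (IsFractionRing.injective A Ω)]
    exact (E3 B hco hz 0).neA
  · refine (E3 B hco hz 2).v_eq_zero (FF k M) (res_mem B hco hz hM 2) ?_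
    obtain ⟨m, w, hw, e⟩ := (E3 B hco hz 2).scale f hf
    have e' : (CarE.w2 Ω hco (CarE.emb K0 Ω (q ^ 2 * M) f) : LaurentSeries Ω) =
      HahnSeries.C (algebraMap A Ω (E3 B hco hz (M := M) 2).ϖA) ^ m * w := e
    change IsU A Ω k (CarE.w2 Ω hco (CarE.emb K0 Ω (q ^ 2 * M) g) : LaurentSeries Ω)
    rw [hg, Gf_w2 hco hℓ, coe_Gf hℓ Z.hK]
    refine TT_scale Z ?_ hw e'
    rw [Ne, map_eq_zero_iff _ (IsFractionRing.injective A Ω)]
    exact (E3 B hco hz 2).neA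

end Hecke

variable [FunField k (FF k M)] [FunField Ω (FF Ω M)] [FunField Ω (FF Ω (q * M))]
  [FunField Ω (FF Ω (q ^ 2 * M))]

include hM in
/-- **functions with divisible divisor, with vanishing outer vertical orders and vanishing transfer
come from level `q M`** -/
theorem old_of_norm (ι : Ω →+* ℂ) (HL : Lifts M K0 A Ω k) {p : ℕ} (hp : (p : k) ≠ 0) (hp1 : 1 < p)
    (HR : RZ K0 A Ω k q M hco p) {ζ : Ωˣ} (hζ : IsPrimitiveRoot ζ q)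
    {f : FF K0 (q ^ 2 * M)} (hf : f ≠ 0)
    (hv0 : ((cm B hco hz hM).comp 0).v f = 0) (hv2 : ((cm B hco hz hM).comp 2).v f = 0)
    (hd : ∀ v : Place Ω (FF Ω (q ^ 2 * M)), (p : ℤ) ∣ v.ord (CarE.emb K0 Ω (q ^ 2 * M) f))
    (h2 : ∃ y : FF Ω (q * M), NN q ζ (CarE.w2 Ω hco (CarE.emb K0 Ω (q ^ 2 * M) f) :
      LaurentSeries Ω) = (y : LaurentSeries Ω) ^ p) :
    ∃ (g₁ g₂ : FF K0 (q * M)), g₁ ≠ 0 ∧ g₂ ≠ 0 ∧
      (∀ v : Place Ω (FF Ω (q * M)), (p : ℤ) ∣ v.ord (CarE.emb K0 Ω (q * M) g₁)) ∧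
      (∀ v : Place Ω (FF Ω (q * M)), (p : ℤ) ∣ v.ord (CarE.emb K0 Ω (q * M) g₂)) ∧
      ∃ x : FF Ω (q ^ 2 * M), x ^ p = CarE.emb K0 Ω (q ^ 2 * M) (f * (oi K0 q M g₁ *
        ow B hco g₂)) := by
  haveI := B.alg
  have hp0 := p_ne p hp
  obtain ⟨c₁, z₁, e1⟩ := NN0_desc B hco hζ hp0 hf h2
  obtain ⟨g, hg0, hv⟩ := exists_adj (nm B hco hz hM) hp0 hf hv0 hv2 e1
  have hgp : g ^ p ≠ 0 := pow_ne_zero _ hg0
  have hf2 : f * (g ^ p)⁻¹ ≠ 0 := mul_ne_zero hf (inv_ne_zero hgp)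
  obtain ⟨g₁, g₂, hg₁, hg₂, d₁, d₂, x, hx⟩ := old_of_v (B := B) (hco := hco) (hz := hz) hM ι HL hp
    hp1 HR hf2 hv (fun v => by
      rw [map_mul, v.ord_mul ((_root_.map_ne_zero _).2 hf)
        ((_root_.map_ne_zero _).2 (inv_ne_zero hgp)), map_inv₀, v.ord_inv, map_pow, ord_pow]
      exact dvd_add (hd v) ((dvd_mul_right _ _).neg_right))
  refine ⟨g₁, g₂, hg₁, hg₂, d₁, d₂, x * CarE.emb K0 Ω (q ^ 2 * M) g, ?_⟩
  rw [mul_pow, hx, ← map_pow, ← map_mul]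
  congr 1
  field_simp

end Fermat.Agent.TyC
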