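import Fermat.Agent.TyC.Maps
import Fermat.Agent.TyC.Cls
import Fermat.Agent.TyC.Vert
import Fermat.Agent.CarM.LiftsInst
import Fermat.Agent.CarK.Main

/-!
# Inertia invariants at level `q ^ 2 M` with vanishing transfer are old, up to Eisenstein
-/

set_option autoImplicit false
set_option linter.style.haveILetI false
set_option linter.unusedSectionVars false

noncomputable section

namespace Fermat.Agent.TyC

open ModularCurve Polynomial IntermediateField Fermat.Agent.ModPoly Fermat.Agent.Red AlgebraicCurve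
open Fermat.Agent.RR Fermat.Agent.Cusp Fermat.Agent.RedMod Fermat.Agent.Spec Fermat.Agent.Curve
open Fermat.Agent.Flat Fermat.Agent.PRem Fermat.Agent.CarE Fermat.Agent.CarM Fermat.Agent.HeckeProd
open Fermat.Agent.Kum Fermat.Agent.KumF Fermat.Agent.HeckeHom Fermat.Agent.ALCoh Fermat.Agent.CarK
open Fermat.Agent.SemiSt Fermat.Agent.TW

attribute [local instance] ThmC.algRK

local notation "Qb" => AlgebraicClosure ℚ

set_option synthInstance.maxHeartbeats 400000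

section Rep

variable {K : Type} [Field K] [Algebra ℚ K] [IsAlgClosed K] [CharZero K] (ι : K →+* ℂ)

/-- the character of `T_ℓ x / x ^ (ℓ + 1)` -/
theorem rep_Gf {N p ℓ : ℕ} [NeZero N] [NeZero p] [hl : Fact ℓ.Prime] (hℓN : ¬ ℓ ∣ N)
    {x : FF K N} {Φ : LZ N}
    (h : Rep N (coeffMap ι (x : LaurentSeries K)) (redI p Φ)) :
    Rep N (coeffMap ι (Gf K ℓ x : LaurentSeries K))
      (opT N hl.out hℓN (ZMod p) (redI p Φ) + -((ℓ + 1) • redI p Φ)) := by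
  have hco : ℓ.Coprime N := (Nat.Prime.coprime_iff_not_dvd hl.out).2 hℓN
  obtain ⟨ζ', hζ'⟩ : ∃ ζ : K, IsPrimitiveRoot ζ ℓ :=
    HasEnoughRootsOfUnity.exists_primitiveRoot K ℓ
  obtain ⟨ζ, rfl⟩ : IsUnit ζ' := hζ'.isUnit (NeZero.ne ℓ)
  have hζ : IsPrimitiveRoot ζ ℓ := IsPrimitiveRoot.coe_units_iff.1 hζ'
  obtain ⟨ξ, hξ⟩ := exists_primitive ℓ
  rw [coe_Gf hco hζ, map_mul, map_inv₀, map_pow,
    coeffMap_TT_of_injective ι ι.injective hζ hξ]
  exact (Kum.Rep.TT hl.out hℓN hξ (redI_parabolic Φ) h).mul (h.pow (ℓ + 1)).inv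

end Rep

variable {q M p : ℕ} [hq : Fact q.Prime] [NeZero M] [hp : Fact p.Prime]

/-- **inertia invariants with vanishing transfer are old up to Eisenstein** -/
theorem old_cls (ι : Qb →+* ℂ) (hco : q.Coprime M) {r : ℕ} (hr : r.Prime)
    (hr12 : r % 12 = 11) (hrM : r ∣ M) (hqp : q ≠ p)
    {A : ValuationSubring Qb} (hA : A.LiesOverPrime q)
    (HR : haveI := ThmC.isFractionRing_RK (A := A)
      haveI := isDVR hA
      haveI : CharP (IsLocalRing.ResidueField A) q := RedMod.charP_residue hA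
      RZ (K0 A) A Qb (IsLocalRing.ResidueField A) q M hco p)
    {ξ : XL (q ^ 2 * M) p} (hξ : ∀ σ ∈ A.inertiaSubgroupIn ℚ, rhoF ι p σ ξ = ξ)
    (hMN : q * M ∣ q ^ 2 * M) (hQN : q ^ 2 ∣ q ^ 2 * M)
    (hco' : (q ^ 2).Coprime (q ^ 2 * M / q ^ 2))
    (htr : mapX p (trL hMN) ξ = 0)
    {S : Set ℕ} {ℓ : ℕ} (hℓ : ℓ.Prime) (hℓN : ¬ ℓ ∣ q ^ 2 * M) (hℓS : ℓ ∉ S) :
    ∃ ξ₁ ξ₂ : XL (q * M) p,
      actX (q ^ 2 * M) p S (CuspForm.heckeAlgebra.T hℓ hℓN hℓS) ξ - (ℓ + 1) • ξ =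
        mapX p (resL hMN) ξ₁ + mapX p ((wL hQN hco').comp (resL hMN)) ξ₂ := by
  haveI := ThmC.isFractionRing_RK (A := A)
  haveI : CharP (IsLocalRing.ResidueField A) q := RedMod.charP_residue hA
  haveI : IsAlgClosed (IsLocalRing.ResidueField A) := isAlgClosed_residueField A
  haveI : IsDiscreteValuationRing (R0 A) := isDVR hA
  haveI : Fact ℓ.Prime := ⟨hℓ⟩
  have hq' : q.Prime := Fact.out
  have hqM : ¬ q ∣ M := (Nat.Prime.coprime_iff_not_dvd hq').1 hco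
  obtain ⟨z, hz⟩ := exists_root_of_unity (q := q) A
  have hB := base_inst hA
  have HL : Lifts M (K0 A) A Qb (kk A) := lifts_inst hA hqM hr hr12 hrM
  have hM : (M : kk A) ≠ 0 := natCast_residue_ne_zero hA hqM
  haveI : FunField (kk A) (FF (kk A) M) := funField_FF hM
  haveI : FunField Qb (FF Qb M) := funField_FF (natCast_ne_zero_K Qb M)
  haveI : FunField Qb (FF Qb (q * M)) := funField_FF (natCast_ne_zero_K Qb (q * M))
  haveI : FunField Qb (FF Qb (q ^ 2 * M)) := funField_FF (natCast_ne_zero_K Qb (q ^ 2 * M))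
  have hpk : (p : kk A) ≠ 0 := natCast_residue_ne_zero hA (fun hd =>
    hqp ((Nat.prime_dvd_prime_iff_eq hq' hp.out).1 hd))
  have hℓk : (ℓ : kk A) ≠ 0 := natCast_residue_ne_zero hA (fun hd => hℓN (by
    rw [← (Nat.prime_dvd_prime_iff_eq hq' hℓ).1 hd]
    exact (dvd_pow_self q two_ne_zero).mul_right M))
  have hcoℓ : ℓ.Coprime (q ^ 2 * M) := (Nat.Prime.coprime_iff_not_dvd hℓ).2 hℓN
  obtain ⟨ζ', hζ'⟩ : ∃ ζ : Qb, IsPrimitiveRoot ζ q :=
    HasEnoughRootsOfUnity.exists_primitiveRoot Qb q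
  obtain ⟨ζ, rfl⟩ : IsUnit ζ' := hζ'.isUnit (NeZero.ne q)
  have hζ : IsPrimitiveRoot ζ q := IsPrimitiveRoot.coe_units_iff.1 hζ'
  -- a fixed representative
  obtain ⟨x, hx, hfix⟩ := exists_fixed (K := Qb) ι ξ
  obtain ⟨Φ, hΦ, hrep⟩ := hx
  obtain ⟨f, hf⟩ := CarE.exists_of_coeff (K := Flat.K0 A) (Ω := Qb) (N := q ^ 2 * M) (y := x)
    (fun i => by
      have h1 : (x : LaurentSeries Qb).coeff i ∈ Flat.K0 A := by
        rw [Flat.K0, IntermediateField.mem_fixedField_iff]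
        intro σ hσ
        have e1 := congrArg (fun w : FF Qb (q ^ 2 * M) => (w : LaurentSeries Qb).coeff i)
          (hfix σ (hξ σ hσ))
        have e2 : ((act (q ^ 2 * M) (σ : Qb ≃+* Qb) x : FF Qb (q ^ 2 * M)) :
            LaurentSeries Qb).coeff i = σ ((x : LaurentSeries Qb).coeff i) := by
          rw [coe_act, coeffMap_coeff]
          rfl
        rw [← e2]
        exact e1
      exact ⟨⟨_, h1⟩, rfl⟩)
  have hx0 : x ≠ 0 := HasCls.ne_zero (ι := ι) ⟨Φ, hΦ, hrep⟩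
  have hf0 : f ≠ 0 := by
    rintro rfl
    exact hx0 (by rw [← hf, map_zero])
  obtain ⟨g, hg⟩ := exists_G0 (ℓ := ℓ) hB hcoℓ f
  rw [hf] at hg
  have hg0 : g ≠ 0 := by
    rintro rfl
    rw [map_zero] at hg
    have h1 := (rep_Gf ι hℓN hrep).ne_zero
    rw [← hg] at h1
    exact h1 (map_zero _)
  have hrepG := rep_Gf ι hℓN hrep
  -- the class of `G`
  have hG : HasCls ι p (Gf Qb ℓ x) (actX (q ^ 2 * M) p S
      (CuspForm.heckeAlgebra.T hℓ hℓN hℓS) ξ - (ℓ + 1) • ξ) := by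
    refine ⟨actL (q ^ 2 * M) S (CuspForm.heckeAlgebra.T hℓ hℓN hℓS) Φ - (ℓ + 1) • Φ, ?_, ?_⟩
    · rw [map_sub, map_nsmul, ← actX_mkX, hΦ]
    · have h1 : redI p (actL (q ^ 2 * M) S (CuspForm.heckeAlgebra.T hℓ hℓN hℓS) Φ) =
          opT (q ^ 2 * M) hℓ hℓN (ZMod p) (redI p Φ) := by
        rw [redI, actL_T, comp_opT]
        rfl
      rw [redI_sub, redI_nsmul, h1, sub_eq_add_neg]
      exact hrepG
  have htr' : tr hMN (ZMod p) (opT (q ^ 2 * M) hℓ hℓN (ZMod p) (redI p Φ) +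
      -((ℓ + 1) • redI p Φ)) = 0 := by
    have h1 : tr hMN (ZMod p) (redI p Φ) = 0 := by
      rw [← hΦ, mapX_mkX, ← map_zero (mkX (N := q * M) (m := p)), mkX_eq_iff, redI_zero,
        redI_trL] at htr
      exact htr
    have hℓM : ¬ ℓ ∣ q * M := fun hd => hℓN (hd.trans hMN)
    rw [map_add, map_neg, map_nsmul, h1, opT_eq hℓ hℓN, tr_T_comm' hMN hℓ hℓN hℓM, h1, map_zero,
      smul_zero, neg_zero, add_zero]
  obtain ⟨v0, v2⟩ := v_Gf hB hco hz hM (ℓ := ℓ) hcoℓ hℓk hf0 (g := g) (by rw [hg, hf])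
  have hnorm := exists_NN_w2 ι hco hrepG hMN htr' hζ
  obtain ⟨g₁, g₂, hg₁, hg₂, d₁, d₂, y, hy⟩ := old_of_norm hB hco hz hM ι HL hpk hp.out.one_lt HR hζ
    hg0 v0 v2 (fun v => by rw [hg]; exact hG.kd v) (by rw [hg]; exact hnorm)
  obtain ⟨ξ₁, Φ₁, hΦ₁, hrep₁⟩ := exists_hasCls ι (N := q * M) (p := p)
    ((_root_.map_ne_zero (CarE.emb (K0 A) Qb (q * M))).2 hg₁) d₁
  obtain ⟨ξ₂, Φ₂, hΦ₂, hrep₂⟩ := exists_hasCls ι (N := q * M) (p := p)
    ((_root_.map_ne_zero (CarE.emb (K0 A) Qb (q * M))).2 hg₂) d₂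
  have hO₁ : HasCls ι p (Oi Qb q M (CarE.emb (K0 A) Qb (q * M) g₁)) (mapX p (resL hMN) ξ₁) := by
    refine ⟨resL hMN Φ₁, by rw [← hΦ₁, mapX_mkX], ?_⟩
    rw [redI_resL]
    exact rep_res hMN hrep₁
  have hO₂ : HasCls ι p (Ow Qb hco (CarE.emb (K0 A) Qb (q * M) g₂))
      (mapX p ((wL hQN hco').comp (resL hMN)) ξ₂) := by
    refine ⟨wL hQN hco' (resL hMN Φ₂), by rw [← hΦ₂, mapX_mkX]; rfl, ?_⟩
    rw [redI_wL, redI_resL]
    have e : coeffMap ι ((Ow Qb hco (CarE.emb (K0 A) Qb (q * M) g₂) : FF Qb (q ^ 2 * M)) :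
        LaurentSeries Qb) = wx (N := q ^ 2 * M) hQN hco'
          (coeffMap ι (CarE.emb (K0 A) Qb (q * M) g₂ : LaurentSeries Qb)) :=
      coeffMap_w2 ι hco hQN hco' (Oi Qb q M (CarE.emb (K0 A) Qb (q * M) g₂))
    rw [e]
    exact rep_wx hQN hco' (rep_res hMN hrep₂)
  have hy' : y ^ p = Gf Qb ℓ x * (Oi Qb q M (CarE.emb (K0 A) Qb (q * M) g₁) *
      Ow Qb hco (CarE.emb (K0 A) Qb (q * M) g₂)) := by
    rw [hy, map_mul, map_mul, emb_oi, emb_ow, hg]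
  have hall := hG.mul (hO₁.mul hO₂)
  have hy0 : y ≠ 0 := by
    rintro rfl
    rw [zero_pow hp.out.ne_zero] at hy'
    exact hall.ne_zero hy'.symm
  rw [← hy'] at hall
  have hzero := hall.unique (HasCls.pow_self ι hy0)
  refine ⟨-ξ₁, -ξ₂, ?_⟩
  rw [map_neg, map_neg, ← neg_add]
  exact eq_neg_of_add_eq_zero_left hzero

end Fermat.Agent.TyC
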