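import Fermat.Agent.Car.Trans
import Fermat.Agent.Car.Dvd

/-!
# Rigidity up to functions realising gluing data
-/

set_option autoImplicit false
set_option linter.unusedSectionVars false
set_option linter.style.haveILetI false

namespace Fermat.Agent.TyC

open Module Polynomial IntermediateField AlgebraicCurve Fermat.Agent.Red Fermat.Agent.RR
  Fermat.Agent.Nod Fermat.Agent.Curve Fermat.Agent.Car

variable {A K F k R κ Ω L : Type*} [CommRing A] [IsDomain A] [IsDiscreteValuationRing A]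
    [Field K] [Algebra A K] [IsFractionRing A K] [Field F] [Algebra K F] [Algebra A F]
    [IsScalarTower A K F] [Field k] [Algebra A k] [CommRing R] [Algebra k R] [Algebra A R]
    [IsScalarTower A k R] [Field κ] [Algebra k κ] [Field Ω] [Field L] [Algebra Ω L] [Algebra K Ω]
    {ι J : Type*} [Fintype ι] [Fintype J]

variable (M : CModel A K F k R κ Ω L ι J)

/-- a function with divisible divisor, with roots of the reductions -/
structure RtD (m : ℕ) (f : F) (E : Divisor Ω L) (γ : J → κ) : Prop where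
  ne : f ≠ 0
  v : ∀ j, (M.comp j).v f = 0
  hE : ∀ v : Place Ω L, (m : ℤ) * E v = v.ord (M.emb f)
  hγ : ∀ j, γ j ^ m = (M.comp j).r f

/-- a point on all components -/
def CP (Q : Place k κ) : Prop := (∀ l, 0 ≤ Q.ord (M.tb l)) ∧ ∀ l l', M.SameAt l Q l' Q

/-- normalised nonvanishing section with prescribed values -/
def Sc (m : ℕ) (f : F) (E : Divisor Ω L) (γ : J → κ) (Q : Place k κ) (ρ : J → k) : Prop :=
  ∃ s, s ∈ M.M0 E ∧ (∀ l, val Q ((M.comp l).r (s ^ m * f⁻¹)) ≠ 0) ∧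
    ∃ c : k, c ≠ 0 ∧ ∀ l, val Q ((M.comp l).r s / γ l) = ρ l * c

variable {M}

theorem RtD.γ_ne {m : ℕ} (hm : m ≠ 0) {f : F} {E : Divisor Ω L} {γ : J → κ} (h : RtD M m f E γ)
    (j : J) : γ j ≠ 0 := by
  intro h0
  have h1 := h.hγ j
  rw [h0, zero_pow hm] at h1
  exact (Comp.r_ne_zero_iff h.ne).2 (h.v j) h1.symm

variable [IsAlgClosed Ω] [CharZero Ω] [FunField Ω L] [Algebra.IsAlgebraic K Ω] [Nonempty J]
  [IsAlgClosed k] [FunField k κ]

theorem RtD.mul {m : ℕ} {f g : F} {E E' : Divisor Ω L} {γ γ' : J → κ} (h : RtD M m f E γ)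
    (h' : RtD M m g E' γ') : RtD M m (f * g) (E + E') (fun j => γ j * γ' j) where
  ne := mul_ne_zero h.ne h'.ne
  v := fun j => by rw [Comp.v_mul _ h.ne h'.ne, h.v, h'.v, add_zero]
  hE := fun v => by
    have hf : M.emb f ≠ 0 := (_root_.map_ne_zero _).2 h.ne
    have hg : M.emb g ≠ 0 := (_root_.map_ne_zero _).2 h'.ne
    rw [Finsupp.add_apply, mul_add, h.hE, h'.hE, map_mul, Place.ord_mul _ hf hg]
  hγ := fun j => by
    rw [mul_pow, h.hγ, h'.hγ, Comp.r_mul (Comp.mem_of_v (h.v j).ge) (Comp.mem_of_v (h'.v j).ge)]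

variable [CharZero K]

theorem Sc.mul {m : ℕ} (hm : m ≠ 0) {f g : F} {E E' : Divisor Ω L} {γ γ' : J → κ}
    (h : RtD M m f E γ) (h' : RtD M m g E' γ') {Q : Place k κ} (hQ : ∀ l, 0 ≤ Q.ord (M.tb l))
    {ρ ρ' : J → k} (hs : Sc M m f E γ Q ρ) (hs' : Sc M m g E' γ' Q ρ') :
    Sc M m (f * g) (E + E') (fun j => γ j * γ' j) Q (fun l => ρ l * ρ' l) := by
  obtain ⟨s, hs, hsv, c, hc, hsc⟩ := hs
  obtain ⟨s', hs', hsv', c', hc', hsc'⟩ := hs'
  have hW : ∀ l, s ∈ (M.comp l).W := fun l => M.memj hs.1 l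
  have hW' : ∀ l, s' ∈ (M.comp l).W := fun l => M.memj hs'.1 l
  refine ⟨s * s', ⟨mul_mem hs.1 hs'.1, fun v hv => ?_⟩, fun l => ?_, c * c', mul_ne_zero hc hc',
    fun l => ?_⟩
  · rw [map_mul, Finsupp.add_apply]
    exact (hs.2 v hv).mul (hs'.2 v hv)
  · have e : (s * s') ^ m * (f * g)⁻¹ = (s ^ m * f⁻¹) * (s' ^ m * g⁻¹) := by
      rw [mul_pow, mul_inv]; ring
    have b1 := M.pow_mul_inv_mem_B h.ne h.v hm h.hE hs
    have b2 := M.pow_mul_inv_mem_B h'.ne h'.v hm h'.hE hs'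
    rw [e, Comp.r_mul (M.memj b1.1 l) (M.memj b2.1 l),
      val_mul (M.reg_r b1 l Q (hQ l)) (M.reg_r b2 l Q (hQ l))]
    exact mul_ne_zero (hsv l) (hsv' l)
  · have g1 := (M.ge_div h.ne h.v hm h.hE hs (hQ l) (h.hγ l)).1
    have g2 := (M.ge_div h'.ne h'.v hm h'.hE hs' (hQ l) (h'.hγ l)).1
    change val Q ((M.comp l).r (s * s') / (γ l * γ' l)) = ρ l * ρ' l * (c * c')
    rw [Comp.r_mul (hW l) (hW' l), mul_div_mul_comm, val_mul g1 g2, hsc, hsc']
    ring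

/-- passing to the chart at infinity -/
theorem Sc.inv {m : ℕ} (hm : m ≠ 0) {f : F} {E : Divisor Ω L} {γ : J → κ} (h : RtD M m f E γ)
    {Q : Place k κ} (hQ : ∀ l, Q.ord (M.tb l) = 0) (htb : ∀ l l', val Q (M.tb l) = val Q (M.tb l'))
    {ρ : J → k} (hs : Sc M m f E γ Q ρ) : Sc M.inv m f E γ Q ρ := by
  obtain ⟨s, hs, hsv, c, hc, hsc⟩ := hs
  -- bounded poles
  have hreg := M.pow_mul_inv_mem_B h.ne h.v hm h.hE hs
  obtain ⟨N, hN⟩ := exists_pow_reg (t := M.emb M.t⁻¹) (x := M.emb (s ^ m * f⁻¹))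
    ((_root_.map_ne_zero _).2 (inv_ne_zero M.t_ne)) (by
      rw [map_inv₀, inv_inv]; exact hreg.2)
  have htW : M.t⁻¹ ∈ M.G.W := M.inv.t_mem
  have e0 : ∀ l, (M.comp l).r M.t⁻¹ = (M.tb l)⁻¹ := fun l => Comp.r_inv (M.v_t l)
  have hgt : ∀ l, Q.ord (M.tb l)⁻¹ = 0 := fun l => by rw [Q.ord_inv, hQ l, neg_zero]
  have g1 : ∀ l, Ge Q 0 (M.tb l)⁻¹ := fun l => Ge.of_le (hgt l).ge
  obtain ⟨l₀⟩ := ‹Nonempty J›
  haveI : Nonempty J := ⟨l₀⟩
  have hv0 : ∀ l, val Q ((M.tb l)⁻¹ ^ N) = val Q ((M.tb l₀)⁻¹ ^ N) := by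
    intro l
    have h1 : ∀ l, val Q (M.tb l)⁻¹ = (val Q (M.tb l))⁻¹ := by
      intro l
      have h2 : val Q (M.tb l * (M.tb l)⁻¹) = 1 := by
        rw [mul_inv_cancel₀ (M.tb_ne l)]
        have := val_algebraMap (v := Q) (1 : k)
        rwa [map_one] at this
      rw [val_mul (Ge.of_le (hQ l).ge) (g1 l)] at h2
      exact eq_inv_of_mul_eq_one_right h2
    rw [val_pow (g1 l), val_pow (g1 l₀), h1, h1, htb l l₀]
  have hne : val Q ((M.tb l₀)⁻¹ ^ N) ≠ 0 := by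
    rw [val_pow (g1 l₀)]
    exact pow_ne_zero _ (val_ne_of_ord (inv_ne_zero (M.tb_ne l₀)) (hgt l₀))
  have hsW : ∀ l, s ∈ (M.comp l).W := fun l => M.memj hs.1 l
  refine ⟨M.t⁻¹ ^ N * s, ⟨mul_mem (pow_mem htW N) hs.1, fun v hv => ?_⟩, fun l => ?_,
    val Q ((M.tb l₀)⁻¹ ^ N) * c, mul_ne_zero hne hc, fun l => ?_⟩
  · -- orders
    change 0 ≤ v.ord (M.emb M.t⁻¹) at hv
    change Ge v (E v) (M.emb (M.t⁻¹ ^ N * s))
    rcases eq_or_ne s 0 with rfl | hs0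
    · rw [mul_zero, map_zero]; exact Ge.zero _ _
    have ht0 : M.emb M.t⁻¹ ≠ 0 := (_root_.map_ne_zero _).2 (inv_ne_zero M.t_ne)
    have hs0' : M.emb s ≠ 0 := (_root_.map_ne_zero _).2 hs0
    have hf0' : M.emb f ≠ 0 := (_root_.map_ne_zero _).2 h.ne
    have h1 := (hN v hv).le_ord (mul_ne_zero (pow_ne_zero _ ht0) ((_root_.map_ne_zero _).2
      (mul_ne_zero (pow_ne_zero _ hs0) (inv_ne_zero h.ne))))
    rw [map_mul, map_pow, map_inv₀ M.emb f, v.ord_mul (pow_ne_zero _ ht0)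
      (mul_ne_zero (pow_ne_zero _ hs0') (inv_ne_zero hf0')), v.ord_mul (pow_ne_zero _ hs0')
      (inv_ne_zero hf0'), ord_pow, ord_pow, v.ord_inv, ← h.hE v] at h1
    apply Ge.of_le
    rw [map_mul, map_pow, v.ord_mul (pow_ne_zero _ ht0) hs0', ord_pow]
    have hm' : (1 : ℤ) ≤ m := by exact_mod_cast Nat.pos_of_ne_zero hm
    have hNt : 0 ≤ (N : ℤ) * v.ord (M.emb M.t⁻¹) := mul_nonneg (Int.natCast_nonneg _) hv
    have h2 : (m : ℤ) * E v ≤ (m : ℤ) * ((N : ℤ) * v.ord (M.emb M.t⁻¹) + v.ord (M.emb s)) := by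
      nlinarith
    exact le_of_mul_le_mul_left h2 (by linarith)
  · change val Q ((M.comp l).r ((M.t⁻¹ ^ N * s) ^ m * f⁻¹)) ≠ 0
    have e : (M.t⁻¹ ^ N * s) ^ m * f⁻¹ = M.t⁻¹ ^ (N * m) * (s ^ m * f⁻¹) := by
      rw [mul_pow, ← pow_mul]; ring
    have htl : M.t⁻¹ ∈ (M.comp l).W := M.memj htW l
    rw [e, Comp.r_mul (pow_mem htl _) (M.memj hreg.1 l), Comp.r_pow htl, e0,
      val_mul (ge_zero_pow (g1 l) _) (M.reg_r hreg l Q (hQ l).ge), val_pow (g1 l)]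
    exact mul_ne_zero (pow_ne_zero _ (val_ne_of_ord (inv_ne_zero (M.tb_ne l)) (hgt l))) (hsv l)
  · change val Q ((M.comp l).r (M.t⁻¹ ^ N * s) / γ l) = _
    have htl : M.t⁻¹ ∈ (M.comp l).W := M.memj htW l
    have g2 := (M.ge_div h.ne h.v hm h.hE hs (hQ l).ge (h.hγ l)).1
    rw [Comp.r_mul (pow_mem htl _) (hsW l), Comp.r_pow htl, e0, mul_div_assoc,
      val_mul (ge_zero_pow (g1 l) _) g2, hsc, hv0]
    ring

/-- **rigidity up to gluing data** -/
theorem rigG [Nontrivial J] (H : M.Good) (H' : M.inv.Good) (hN : M.Node) (hN' : M.inv.Node)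
    (hcusp : ∀ j (Q : Place k κ) i (Q' : Place k κ),
      Q.ord (M.tb j) < 0 → Q'.ord (M.tb i) < 0 → M.inv.SameAt j Q i Q' → j = i)
    {q : ℕ} [Fact q.Prime] [CharP k q] {m : ℕ} (hm : (m : k) ≠ 0)
    {f : F} {E : Divisor Ω L} {γ : J → κ} (h : RtD M m f E γ) (P : F → Prop) (l₀ : J)
    (tor : ∀ ρ : J → Place k κ → k, (∀ l Q, ρ l Q ^ m = 1) → (∀ Q, ρ l₀ Q = 1) →
      ∃ (g : F) (E' : Divisor Ω L) (γ' : J → κ), P g ∧ RtD M m g E' γ' ∧
        ∀ Q, CP M Q → Sc M m g E' γ' Q (fun l => ρ l Q)) :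
    ∃ g : F, P g ∧ ∃ x : L, x ^ m = M.emb (f * g) := by
  classical
  have hm0 : m ≠ 0 := by rintro rfl; simp at hm
  -- sections for `f`
  have h1 : ∀ Q, CP M Q → ∃ ρ : J → k, (∀ l, ρ l ^ m = 1) ∧ ρ l₀ = 1 ∧
      Sc M m f E γ Q (fun l => (ρ l)⁻¹) := by
    intro Q hQ
    obtain ⟨s, hs, hval⟩ := M.exists_gen_at H h.ne h.v hm0 h.hE (hQ.1 l₀)
    have hy := M.pow_mul_inv_mem_B h.ne h.v hm0 h.hE hs
    have hall : ∀ l, val Q ((M.comp l).r (s ^ m * f⁻¹)) =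
        val Q ((M.comp l₀).r (s ^ m * f⁻¹)) := fun l => hQ.2 l l₀ _ hy
    have hu : ∀ l, val Q ((M.comp l).r s / γ l) ^ m = val Q ((M.comp l₀).r (s ^ m * f⁻¹)) :=
      fun l => by
        rw [← hall l]
        exact (M.ge_div h.ne h.v hm0 h.hE hs (hQ.1 l) (h.hγ l)).2
    have hune : ∀ l, val Q ((M.comp l).r s / γ l) ≠ 0 := by
      intro l h0
      have := hu l
      rw [h0, zero_pow hm0] at this
      exact hval this.symm
    refine ⟨fun l => val Q ((M.comp l₀).r s / γ l₀) / val Q ((M.comp l).r s / γ l), fun l => ?_,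
      div_self (hune l₀), s, hs, fun l => by rw [hall l]; exact hval,
      val Q ((M.comp l₀).r s / γ l₀), hune l₀, fun l => ?_⟩
    · rw [div_pow, hu, hu, div_self hval]
    · change _ = (val Q ((M.comp l₀).r s / γ l₀) / val Q ((M.comp l).r s / γ l))⁻¹ * _
      rw [inv_div, div_mul_cancel₀ _ (hune l₀)]
  choose! ρ hρ1 hρ0 hρs using h1
  let ρ' : J → Place k κ → k := fun l Q => if CP M Q then ρ Q l else 1
  obtain ⟨g, E', γ', hP, hg, hgs⟩ := tor ρ' (fun l Q => by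
    simp only [ρ']
    split_ifs with hc
    · exact hρ1 Q hc l
    · exact one_pow m) (fun Q => by
    simp only [ρ']
    split_ifs with hc
    · exact hρ0 Q hc
    · rfl)
  refine ⟨g, hP, ?_⟩
  have hfg := h.mul hg
  have hkey : ∀ Q, CP M Q → Sc M m (f * g) (E + E') (fun j => γ j * γ' j) Q (fun _ => 1) := by
    intro Q hQ
    have h2 := Sc.mul hm0 h hg hQ.1 (hρs Q hQ) (hgs Q hQ)
    have h3 : (fun l => (ρ Q l)⁻¹ * ρ' l Q) = fun _ => (1 : k) := by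
      funext l
      simp only [ρ', if_pos hQ]
      apply inv_mul_cancel₀
      intro h0
      have := hρ1 Q hQ l
      rw [h0, zero_pow hm0] at this
      exact zero_ne_one this
    rw [h3] at h2
    exact h2
  refine M.rigN H H' hN hN' hfg.ne hfg.v hm hfg.hE (fun j => γ j * γ' j) hfg.hγ ?_ ?_
  · intro Q hQ hsame
    obtain ⟨s, hs, hsv, c, hc, hsc⟩ := hkey Q ⟨hQ, hsame⟩
    exact ⟨s, hs, hsv, fun l l' => by rw [hsc, hsc]⟩
  · intro Q hQ hsame
    -- the point is not a cusp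
    obtain ⟨i, hi⟩ := exists_ne l₀
    have ht : ∀ l, M.inv.tb l = (M.tb l)⁻¹ := fun l => M.tb_inv l
    have hQ' : ∀ l, Q.ord (M.tb l) ≤ 0 := fun l => by
      have := hQ l
      rw [ht, Q.ord_inv] at this
      linarith
    have hsv : ∀ l l', val Q (M.tb l)⁻¹ = val Q (M.tb l')⁻¹ := by
      intro l l'
      have := hsame l l' _ M.inv.t_mem_B
      have e : ∀ l, (M.inv.comp l).r M.inv.t = (M.tb l)⁻¹ := fun l => M.tb_inv l
      rwa [e, e] at this
    have hzero : ∀ l, Q.ord (M.tb l) = 0 := by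
      by_contra hcon
      push Not at hcon
      obtain ⟨l, hl⟩ := hcon
      have hneg : Q.ord (M.tb l) < 0 := lt_of_le_of_ne (hQ' l) hl
      have hneg' : ∀ l', Q.ord (M.tb l') < 0 := by
        intro l'
        refine lt_of_le_of_ne (hQ' l') fun h0 => ?_
        have h4 : val Q (M.tb l')⁻¹ ≠ 0 := val_ne_of_ord (inv_ne_zero (M.tb_ne l'))
          (by rw [Place.ord_inv, h0, neg_zero])
        rw [hsv l' l] at h4
        have := ord_eq_zero_of_val_ne h4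
        rw [Place.ord_inv] at this
        omega
      exact hi (hcusp i Q l₀ Q (hneg' i) (hneg' l₀) (hsame i l₀))
    have hCP : CP M Q := ⟨fun l => (hzero l).ge, fun l l' =>
      CModel.SameAt.of_inv (hzero l) (hzero l') (hsame l l')⟩
    have htb : ∀ l l', val Q (M.tb l) = val Q (M.tb l') := fun l l' => hCP.2 l l' _ M.t_mem_B
    obtain ⟨s, hs, hsv, c, hc, hsc⟩ := Sc.inv hm0 hfg hzero htb (hkey Q hCP)
    exact ⟨s, hs, hsv, fun l l' => (hsc l).trans (hsc l').symm⟩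

end Fermat.Agent.TyC
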