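import Fermat.Agent.TyC.OldC
import Fermat.Agent.TyC.Kil
import Fermat.Agent.TyC.Fix
import Fermat.Agent.PRem.BLR

/-!
# The type change
-/

set_option autoImplicit false
set_option linter.style.haveILetI false
set_option linter.unusedSectionVars false

noncomputable section

namespace Fermat.Agent.TyC

open Fermat.Agent.Kum Fermat.Agent.HeckeHom Fermat.Agent.ALCoh Fermat.Agent.TW Fermat.Agent.PRem
  Fermat.Agent.CL Fermat.Agent.ImW Fermat.Agent.Flat WeierstrassCurve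
  WeierstrassCurve.Affine WeierstrassCurve.Affine.Point

attribute [local instance] ThmC.algRK

local notation "Qb" => AlgebraicClosure ℚ

theorem eq_zero_of_zsmul {X : Type*} [AddCommGroup X] {p : ℕ} [hp : Fact p.Prime] {x : X}
    (hx : p • x = 0) {c : ℤ} (hc : ¬ (p : ℤ) ∣ c) (h : c • x = 0) : x = 0 := by
  have h1 : IsCoprime (p : ℤ) c :=
    (Nat.prime_iff_prime_int.1 hp.out).coprime_iff_not_dvd.2 hc
  obtain ⟨a, b, hab⟩ := h1
  have h2 : x = (a * p + b * c) • x := by rw [hab, one_smul]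
  rw [h2, add_smul, mul_smul, mul_smul, h, smul_zero, natCast_zsmul, hx, smul_zero, add_zero]

theorem XL_nsmul {N p : ℕ} [NeZero N] [NeZero p] (ξ : XL N p) : p • ξ = 0 := by
  obtain ⟨φ, rfl⟩ := mkX_surjective ξ
  exact mkX_nsmul φ

theorem tch_of {W : WeierstrassCurve ℤ} (hΔ : W.Δ ≠ 0) (hss : W.IsSemistableModel)
    {p : ℕ} [hp : Fact p.Prime] (hp2 : p ≠ 2) (hirr : W.ModRepIsIrreducible p)
    {q M r : ℕ} [hq : Fact q.Prime] [NeZero M] (hco : q.Coprime M) (hqp : q ≠ p)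
    (hr : r.Prime) (hrM : r ∣ M) (hr12 : r % 12 = 11)
    (HR : ∀ (A : ValuationSubring Qb) (hA : A.LiesOverPrime q),
      haveI := ThmC.isFractionRing_RK (A := A)
      haveI := isDVR hA
      haveI : CharP (IsLocalRing.ResidueField A) q := RedMod.charP_residue hA
      RZ (K0 A) A Qb (IsLocalRing.ResidueField A) q M hco p)
    (hmod : W.IsResiduallyModularOfLevel p (q ^ 2 * M)) :
    W.IsResiduallyModularOfLevel p (q * M) := by
  by_contra hno
  haveI := isElliptic_EQ hΔ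
  have hW := isIntegralModelOf_EQ W
  obtain ⟨ρ, hres⟩ := exists_resW hΔ hp2 hirr
  obtain ⟨A, hA⟩ := Places.exists_liesOverPrime Qb hq.out
  let ι : Qb →+* ℂ := (IsAlgClosed.lift : Qb →ₐ[ℚ] ℂ).toRingHom
  obtain ⟨f, 𝔪, hf, h𝔪, hp𝔪, hcong⟩ := hmod
  obtain ⟨κ, hκ, hκσ, hκT⟩ := exists_blr (N := q ^ 2 * M) ι hW hp2 hirr hf h𝔪 hp𝔪 hcong
  obtain ⟨Q, hQ0, hQ⟩ := exists_fixed_TE hres hq.out (hss q hq.out) hqp hA
  set ξ := κ Q with hξ
  have hξ0 : ξ ≠ 0 := fun h => hQ0 (hκ (h.trans (_root_.map_zero κ).symm))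
  have hfix : ∀ σ ∈ A.inertiaSubgroupIn ℚ, rhoF ι p σ ξ = ξ := fun σ hσ => by
    rw [hξ, ← hκσ, hQ σ hσ]
  -- the exceptional set
  set S := badS W (q ^ 2 * M) p with hS
  have hNS : ∀ l : ℕ, l.Prime → l ∣ q ^ 2 * M → l ∈ S := fun l _ hl =>
    Or.inl (dvd_mul_of_dvd_left hl p)
  have hMN : q * M ∣ q ^ 2 * M := ⟨q, by ring⟩
  have hMS : ∀ l : ℕ, l.Prime → l ∣ q * M → l ∈ S := fun l hl h => hNS l hl (h.trans hMN)
  have hSS : ∀ l : ℕ, l.Prime → W.IsGoodPrimeFor l → ¬ l ∣ q * M → l ≠ p → l ∉ S := by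
    intro l hl hg hlM hlp hlS
    rcases hlS with h | h
    · rcases (Nat.Prime.dvd_mul hl).1 h with h1 | h1
      · rcases (Nat.Prime.dvd_mul hl).1 h1 with h2 | h2
        · exact hlM ((hl.dvd_of_dvd_pow h2).mul_right M)
        · exact hlM (h2.mul_left q)
      · exact hlp ((Nat.prime_dvd_prime_iff_eq hl hp.out).1 h1)
    · exact h hg
  have heig : ∀ l : sg S, tX (q ^ 2 * M) p hNS (MvPolynomial.X l) ξ =
      (W.apOfModel l : ℤ) • ξ := by
    intro l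
    have hlS := l.2.2
    simp only [hS, badS, Set.mem_ofPred_eq, not_or, not_not] at hlS
    change actX (q ^ 2 * M) p S (evT hNS (MvPolynomial.X l)) ξ = _
    rw [evT_X]
    exact hκT S l l.2.1 _ l.2.2 (fun e => hlS.1 (e ▸ dvd_mul_left _ _)) hlS.2 Q
  obtain ⟨P, hP0, hP1⟩ := exists_kill_of_not W hMS hSS hno
  set c := MvPolynomial.eval (fun l : sg S => (W.apOfModel l : ℤ)) P with hc
  have hPc : tX (q ^ 2 * M) p hNS P ξ = c • ξ :=
    tX_eig hNS (a := fun l => W.apOfModel l) heig P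
  have hcp : ¬ (p : ℤ) ∣ c := by
    intro hd
    apply hP1
    have h1 : MvPolynomial.eval₂ (Int.castRingHom (ZMod p))
        (fun l : sg S => ((W.apOfModel l : ℤ) : ZMod p)) P = (c : ZMod p) := by
      rw [hc]
      change _ = (Int.castRingHom (ZMod p)) (MvPolynomial.eval _ P)
      rw [← MvPolynomial.eval₂_id, MvPolynomial.hom_eval₂]
      rfl
    rw [h1]
    exact (ZMod.intCast_zmod_eq_zero_iff_dvd c p).2 hd
  have hP0' : ∀ η : XL (q * M) p, tX (q * M) p hMS P η = 0 := hP0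
  -- the transfer vanishes
  have htr : mapX p (trL hMN) ξ = 0 := by
    have h1 := mapX_tX hNS hMS (eqT_trL hMN) P ξ
    rw [hP0', hPc, map_zsmul] at h1
    exact eq_zero_of_zsmul (XL_nsmul _) hcp h1
  -- the Eisenstein factor
  obtain ⟨ℓ, hℓ, hℓN, hℓp, hℓW, hne⟩ := exists_not_eis (E := EQ W) hp2 hW hirr (q ^ 2 * M)
    (NeZero.ne _)
  have hQN : q ^ 2 ∣ q ^ 2 * M := dvd_mul_right _ _
  have hco' : (q ^ 2).Coprime (q ^ 2 * M / q ^ 2) := by
    rw [Nat.mul_div_cancel_left _ (pow_pos hq.out.pos 2)]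
    exact hco.pow_left 2
  have hℓS : ℓ ∉ S := hSS ℓ hℓ hℓW (fun h => hℓN (h.trans hMN)) hℓp
  obtain ⟨ξ₁, ξ₂, h12⟩ := old_cls ι hco hr hr12 hrM hqp hA (HR A hA) hfix hMN hQN hco' htr
    hℓ hℓN hℓS
  rw [hκT S ℓ hℓ hℓN hℓS hℓp hℓW Q] at h12
  have e1 : (W.apOfModel ℓ : ℤ) • κ Q - (ℓ + 1) • ξ = ((W.apOfModel ℓ : ℤ) - ℓ - 1) • ξ := by
    rw [← hξ, ← natCast_zsmul, ← sub_smul]
    congr 1
    push_cast
    ring
  rw [e1] at h12
  have h3 := congrArg (tX (q ^ 2 * M) p hNS P) h12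
  rw [map_zsmul, hPc, map_add, ← mapX_tX hMS hNS (eqT_resL hMN) P ξ₁, hP0', _root_.map_zero, zero_add,
    mapX_comp, ← mapX_tX hNS hNS (eqT_wL hQN hco') P, ← mapX_tX hMS hNS (eqT_resL hMN) P ξ₂, hP0',
    _root_.map_zero, _root_.map_zero, smul_smul] at h3
  refine hξ0 (eq_zero_of_zsmul (XL_nsmul _) (fun hd => ?_) h3)
  rcases (Nat.prime_iff_prime_int.1 hp.out).dvd_or_dvd hd with h | h
  · exact hne h
  · exact hcp h

end Fermat.Agent.TyC
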